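import Fermat.Agent.GR.E.Model
import Fermat.Agent.S24.Degree
import Fermat.Agent.S24.Comb

set_option autoImplicit false
set_option synthInstance.maxHeartbeats 400000

noncomputable section

namespace Fermat.Agent.GR.E

open Fermat.Agent.GR ModularCurve AlgebraicCurve IntermediateField

/-- BR10a. The two descriptions of the function field over `Q̄` agree. -/
theorem modularFunctionFieldBar_eq_FF (N : ℕ) : ModularCurve.modularFunctionFieldBar N = FF Qb N := by
  rw [Fermat.Agent.S24.modularFunctionFieldBar_eq_adjoin]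
  unfold Fermat.Agent.GR.FF modularFunctionFieldFullC
  congr 1
  ext x
  constructor
  · rintro ⟨y, ⟨d, hne, hd, rfl⟩, rfl⟩
    refine ⟨d, hne, hd, ?_⟩
    rw [coeffEmb, coeffMap_qExpand, ← jqModC_rat, coeffMap_jqModC]
  · rintro ⟨d, hne, hd, rfl⟩
    refine ⟨_, ⟨d, hne, hd, rfl⟩, ?_⟩
    rw [coeffEmb, coeffMap_qExpand, ← jqModC_rat, coeffMap_jqModC]

/-- `ψ(N r) = (r + 1) ψ(N)` for a prime `r ∤ N`. -/
theorem BR10_dedekindPsi_mul_prime (N : ℕ) (hN : N ≠ 0) (r : ℕ) (hr : r.Prime) (hrN : ¬ r ∣ N) :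
    dedekindPsi (N * r) = (r + 1) * dedekindPsi N := by
  rw [mul_comm N r]
  exact Fermat.Agent.S20.AR.dedekindPsi_mul_of_not_dvd hr hN hrN

/-- The degree of `FF Q̄ N` over `Q̄(j)`, in relative form. -/
theorem BR10_relfinrank_j (N : ℕ) [NeZero N] :
    (Qb⟮coeffEmb Qb jq⟯).relfinrank (FF Qb N) = dedekindPsi N := by
  rw [← modularFunctionFieldBar_eq_FF, ← Fermat.Agent.S24.card_cosets, Fermat.Agent.S24.finrank_FF,
    ← relfinrank_top_right,
    ← relfinrank_map_map _ _ (ModularCurve.modularFunctionFieldBar N).val]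
  congr 1
  · rw [adjoin_map, Set.image_singleton]
    rfl
  · rw [← AlgHom.fieldRange_eq_map, fieldRange_val]

theorem BR10_j_le (N : ℕ) : Qb⟮coeffEmb Qb jq⟯ ≤ FF Qb N := by
  rw [adjoin_simple_le_iff, ← modularFunctionFieldBar_eq_FF]
  exact (Fermat.Agent.S24.jF N).2

theorem BR10_FF_mono {N N' : ℕ} (h : N ∣ N') : FF Qb N ≤ FF Qb N' := by
  apply IntermediateField.adjoin.mono
  rintro x ⟨d, hne, hd, rfl⟩
  exact ⟨d, hne, hd.trans h, rfl⟩

/-- BR10b. Degree of `X₀(N r) → X₀(N)`. -/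
theorem relfinrank_FF_mul_prime (N : ℕ) [NeZero N] (r : ℕ) (hr : r.Prime) (hrN : ¬ r ∣ N) :
    (FF Qb N).relfinrank (FF Qb (N * r)) = r + 1 := by
  have : NeZero (N * r) := ⟨mul_ne_zero (NeZero.ne N) hr.ne_zero⟩
  have h1 := relfinrank_mul_relfinrank (BR10_j_le N) (BR10_FF_mono (Dvd.intro r rfl : N ∣ N * r))
  rw [BR10_relfinrank_j, BR10_relfinrank_j,
    BR10_dedekindPsi_mul_prime N (NeZero.ne N) r hr hrN, mul_comm] at h1
  have h2 : dedekindPsi N ≠ 0 := by
    rw [← Fermat.Agent.S24.card_cosets]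
    exact Nat.card_pos.ne'
  exact Nat.eq_of_mul_eq_mul_right (Nat.pos_of_ne_zero h2) h1

end Fermat.Agent.GR.E
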