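import Fermat.Agent.GR.E.Model
import Fermat.Agent.GR.F.Red

set_option autoImplicit false
set_option synthInstance.maxHeartbeats 400000

noncomputable section

namespace Fermat.Agent.GR.E

open Fermat.Agent.GR ModularCurve AlgebraicCurve IntermediateField

section M1aux

variable {L : Type*} [Field L] (R : ValuationSubring L)

theorem M1_isInt_mul {f g : LaurentSeries L} (hf : IsInt R f) (hg : IsInt R g) :
    IsInt R (f * g) := by
  obtain ⟨f', rfl⟩ := (isInt_iff R).mp hf
  obtain ⟨g', rfl⟩ := (isInt_iff R).mp hg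
  exact (isInt_iff R).mpr ⟨f' * g', map_mul _ _ _⟩

theorem M1_isInt_add {f g : LaurentSeries L} (hf : IsInt R f) (hg : IsInt R g) :
    IsInt R (f + g) := by
  intro n
  rw [HahnSeries.coeff_add]
  exact R.add_mem _ _ (hf n) (hg n)

theorem M1_isInt_neg {f : LaurentSeries L} (hf : IsInt R f) : IsInt R (-f) := by
  intro n
  rw [HahnSeries.coeff_neg]
  exact R.neg_mem _ (hf n)

theorem M1_isInt_zero : IsInt R (0 : LaurentSeries L) := by
  intro n
  rw [HahnSeries.coeff_zero]
  exact R.zero_mem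

theorem M1_isPrim_one : IsPrim R (1 : LaurentSeries L) := by
  refine (isPrim_iff R).mpr ⟨1, map_one _, ?_⟩
  rw [map_one]
  exact one_ne_zero

theorem M1_isPrim_mul {f g : LaurentSeries L} (hf : IsPrim R f) (hg : IsPrim R g) :
    IsPrim R (f * g) := by
  obtain ⟨f', rfl, hf'⟩ := (isPrim_iff R).mp hf
  obtain ⟨g', rfl, hg'⟩ := (isPrim_iff R).mp hg
  refine (isPrim_iff R).mpr ⟨f' * g', map_mul _ _ _, ?_⟩
  rw [map_mul]
  exact mul_ne_zero hf' hg'

theorem M1_isPrim_ne_zero {f : LaurentSeries L} (hf : IsPrim R f) : f ≠ 0 := by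
  rintro rfl
  obtain ⟨_, n, hn⟩ := hf
  apply hn
  rw [HahnSeries.coeff_zero]
  exact R.nonunits.zero_mem

theorem M1_coeff_C_mul (c : L) (f : LaurentSeries L) (n : ℤ) :
    (HahnSeries.C c * f).coeff n = c * f.coeff n := by
  rw [HahnSeries.C_mul_eq_smul, HahnSeries.coeff_smul, smul_eq_mul]

theorem M1_isInt_C_mul {c : L} (hc : c ∈ R) {f : LaurentSeries L} (hf : IsInt R f) :
    IsInt R (HahnSeries.C c * f) := by
  intro n
  rw [M1_coeff_C_mul]
  exact R.mul_mem _ _ hc (hf n)

theorem M1_C_mem_FF (N : ℕ) (c : L) : (HahnSeries.C c : LaurentSeries L) ∈ FF L N := by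
  have : (HahnSeries.C c : LaurentSeries L) = algebraMap L (LaurentSeries L) c := by
    rw [algebraMap_laurentSeries_eq_single]
    rfl
  rw [this]
  exact (FF L N).algebraMap_mem c

/-- content of a nonzero integral series over a principal valuation ring. -/
theorem M1_exists_prim [IsPrincipalIdealRing R] {h : LaurentSeries L} (hi : IsInt R h)
    (h0 : h ≠ 0) :
    ∃ c : L, c ≠ 0 ∧ ∃ h' : LaurentSeries L, IsPrim R h' ∧ h = HahnSeries.C c * h' := by
  set I : Ideal R := Ideal.span (Set.range fun n : ℤ => (⟨h.coeff n, hi n⟩ : R)) with hI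
  obtain ⟨c, hc⟩ := (IsPrincipalIdealRing.principal I).principal
  have hmem : ∀ n : ℤ, (⟨h.coeff n, hi n⟩ : R) ∈ I := fun n =>
    Ideal.subset_span ⟨n, rfl⟩
  have hdvd : ∀ n : ℤ, ∃ r : R, h.coeff n = (c : L) * (r : L) := by
    intro n
    have h1 := hmem n
    rw [hc] at h1
    obtain ⟨r, hr⟩ := Submodule.mem_span_singleton.mp h1
    refine ⟨r, ?_⟩
    have h2 := congrArg (fun x : R => (x : L)) hr
    simp only [smul_eq_mul] at h2
    rw [← h2, mul_comm]
    rfl
  have hc0 : (c : L) ≠ 0 := by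
    intro hc0
    apply h0
    ext n
    obtain ⟨r, hr⟩ := hdvd n
    rw [hr, hc0, zero_mul, HahnSeries.coeff_zero]
  refine ⟨c, hc0, HahnSeries.C (c : L)⁻¹ * h, ⟨?_, ?_⟩, ?_⟩
  · intro n
    obtain ⟨r, hr⟩ := hdvd n
    rw [M1_coeff_C_mul, hr, inv_mul_cancel_left₀ hc0]
    exact r.2
  · by_contra hcon
    push Not at hcon
    have hle : I ≤ Ideal.span {c} * IsLocalRing.maximalIdeal R := by
      rw [hI, Ideal.span_le]
      rintro _ ⟨n, rfl⟩
      obtain ⟨r, hr⟩ := hdvd n
      have h1 := hcon n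
      rw [M1_coeff_C_mul, hr, inv_mul_cancel_left₀ hc0,
        ValuationSubring.coe_mem_nonunits_iff] at h1
      have h2 : (⟨h.coeff n, hi n⟩ : R) = c * r := Subtype.ext hr
      show (⟨h.coeff n, hi n⟩ : R) ∈ Ideal.span {c} * IsLocalRing.maximalIdeal R
      rw [h2]
      exact Ideal.mul_mem_mul (Ideal.mem_span_singleton_self c) h1
    have hcI : c ∈ I := by
      rw [hc]
      exact Submodule.mem_span_singleton_self c
    obtain ⟨m, hm, hcm⟩ := Ideal.mem_span_singleton_mul.mp (hle hcI)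
    have hc0' : c ≠ 0 := fun h => hc0 (by rw [h]; rfl)
    have hm1 : m = 1 := by
      have : c * m = c * 1 := by rw [hcm, mul_one]
      exact mul_left_cancel₀ hc0' this
    rw [hm1] at hm
    exact (Ideal.ne_top_iff_one _).mp (IsLocalRing.maximalIdeal.isMaximal R).ne_top hm
  · rw [← mul_assoc, ← map_mul, mul_inv_cancel₀ hc0, map_one, one_mul]

/-- the generators are primitive. -/
theorem M1_isPrim_gen (d : ℕ) [NeZero d] : IsPrim R (qExpand L d (jqModC L)) := by
  constructor
  · intro n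
    by_cases hn : (d : ℤ) ∣ n
    · obtain ⟨m, rfl⟩ := hn
      rw [qExpand_coeff_mul, coeff_jqModC_eq_intCast]
      exact intCast_mem R _
    · rw [qExpand_coeff_of_not_dvd d _ hn]
      exact R.zero_mem
  · refine ⟨(d : ℤ) * (-1), ?_⟩
    rw [qExpand_coeff_mul, coeff_jqModC_neg_one, ValuationSubring.mem_nonunits_iff, map_one]
    exact lt_irrefl _

/-- normal form of the elements of the function field. -/
def M1_NF (N : ℕ) (u : LaurentSeries L) : Prop :=
  u = 0 ∨ ∃ c : L, c ≠ 0 ∧ ∃ f g : LaurentSeries L, f ∈ FF L N ∧ g ∈ FF L N ∧ IsPrim R f ∧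
    IsPrim R g ∧ u * g = HahnSeries.C c * f

theorem M1_nf_of_isInt [IsPrincipalIdealRing R] (N : ℕ) {u g h : LaurentSeries L} {c : L}
    (hc : c ≠ 0) (hgF : g ∈ FF L N) (hg : IsPrim R g) (hhF : h ∈ FF L N) (hh : IsInt R h)
    (hu : u * g = HahnSeries.C c * h) : M1_NF R N u := by
  by_cases h0 : h = 0
  · left
    rw [h0, mul_zero] at hu
    exact (mul_eq_zero.mp hu).resolve_right (M1_isPrim_ne_zero R hg)
  · right
    obtain ⟨c', hc', h', hp, rfl⟩ := M1_exists_prim R hh h0
    refine ⟨c * c', mul_ne_zero hc hc', h', g, ?_, hgF, hp, hg, ?_⟩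
    · have h1 : h' = HahnSeries.C c'⁻¹ * (HahnSeries.C c' * h') := by
        rw [← mul_assoc, ← map_mul, inv_mul_cancel₀ hc', map_one, one_mul]
      rw [h1]
      exact mul_mem (M1_C_mem_FF N _) hhF
    · rw [hu, map_mul, mul_assoc]

theorem M1_nf [IsPrincipalIdealRing R] (N : ℕ) {u : LaurentSeries L} (hu : u ∈ FF L N) :
    M1_NF R N u := by
  induction hu using IntermediateField.adjoin_induction with
  | mem x hx =>
    obtain ⟨d, hd, hdN, rfl⟩ := hx
    right
    exact ⟨1, one_ne_zero, _, 1, jqModCd_mem_full L N hdN, one_mem _, M1_isPrim_gen R d,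
      M1_isPrim_one R, by rw [map_one, one_mul, mul_one]⟩
  | algebraMap c =>
    by_cases hc : c = 0
    · left
      rw [hc, map_zero]
    · right
      refine ⟨c, hc, 1, 1, one_mem _, one_mem _, M1_isPrim_one R, M1_isPrim_one R, ?_⟩
      rw [mul_one, mul_one, algebraMap_laurentSeries_eq_single]
      rfl
  | add x y _ _ hx hy =>
    rcases hx with rfl | ⟨c, hc, f, g, hfF, hgF, hf, hg, hx⟩
    · rw [zero_add]; exact hy
    rcases hy with rfl | ⟨c', hc', f', g', hfF', hgF', hf', hg', hy⟩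
    · rw [add_zero]; exact Or.inr ⟨c, hc, f, g, hfF, hgF, hf, hg, hx⟩
    rcases R.mem_or_inv_mem (c' / c) with h | h
    · refine M1_nf_of_isInt R N (g := g * g') (h := f * g' + HahnSeries.C (c' / c) * (f' * g))
        hc (mul_mem hgF hgF') (M1_isPrim_mul R hg hg')
        (add_mem (mul_mem hfF hgF') (mul_mem (M1_C_mem_FF N _) (mul_mem hfF' hgF)))
        (M1_isInt_add R (M1_isInt_mul R hf.1 hg'.1)
          (M1_isInt_C_mul R h (M1_isInt_mul R hf'.1 hg.1))) ?_
      have h1 : HahnSeries.C c * (HahnSeries.C (c' / c) : LaurentSeries L) = HahnSeries.C c' := by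
        rw [← map_mul, mul_div_cancel₀ _ hc]
      calc (x + y) * (g * g') = (x * g) * g' + (y * g') * g := by ring
        _ = HahnSeries.C c * f * g' + HahnSeries.C c * HahnSeries.C (c' / c) * f' * g := by
            rw [hx, hy, h1]
        _ = _ := by ring
    · rw [inv_div] at h
      refine M1_nf_of_isInt R N (g := g * g') (h := HahnSeries.C (c / c') * (f * g') + f' * g)
        hc' (mul_mem hgF hgF') (M1_isPrim_mul R hg hg')
        (add_mem (mul_mem (M1_C_mem_FF N _) (mul_mem hfF hgF')) (mul_mem hfF' hgF))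
        (M1_isInt_add R (M1_isInt_C_mul R h (M1_isInt_mul R hf.1 hg'.1))
          (M1_isInt_mul R hf'.1 hg.1)) ?_
      have h1 : HahnSeries.C c' * (HahnSeries.C (c / c') : LaurentSeries L) = HahnSeries.C c := by
        rw [← map_mul, mul_div_cancel₀ _ hc']
      calc (x + y) * (g * g') = (x * g) * g' + (y * g') * g := by ring
        _ = HahnSeries.C c' * HahnSeries.C (c / c') * f * g' + HahnSeries.C c' * f' * g := by
            rw [hx, hy, h1]
        _ = _ := by ring
  | inv x _ hx =>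
    rcases hx with rfl | ⟨c, hc, f, g, hfF, hgF, hf, hg, hx⟩
    · left; rw [inv_zero]
    · right
      have hf0 := M1_isPrim_ne_zero R hf
      have hg0 := M1_isPrim_ne_zero R hg
      have hC0 : (HahnSeries.C c : LaurentSeries L) ≠ 0 := by
        rw [Ne, map_eq_zero]; exact hc
      have hx0 : x ≠ 0 := by
        rintro rfl
        rw [zero_mul] at hx
        exact mul_ne_zero hC0 hf0 hx.symm
      refine ⟨c⁻¹, inv_ne_zero hc, g, f, hgF, hfF, hg, hf, ?_⟩
      rw [map_inv₀]
      field_simp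
      rw [mul_comm, hx]
  | mul x y _ _ hx hy =>
    rcases hx with rfl | ⟨c, hc, f, g, hfF, hgF, hf, hg, hx⟩
    · left; rw [zero_mul]
    rcases hy with rfl | ⟨c', hc', f', g', hfF', hgF', hf', hg', hy⟩
    · left; rw [mul_zero]
    right
    refine ⟨c * c', mul_ne_zero hc hc', f * f', g * g', mul_mem hfF hfF', mul_mem hgF hgF',
      M1_isPrim_mul R hf hf', M1_isPrim_mul R hg hg', ?_⟩
    calc x * y * (g * g') = (x * g) * (y * g') := by ring
      _ = _ := by rw [hx, hy, map_mul]; ring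

theorem M1_gaussInt_or_inv [IsPrincipalIdealRing R] (N : ℕ) (u : FF L N) :
    IsGaussInt R N u ∨ IsGaussInt R N u⁻¹ := by
  rcases M1_nf R N u.2 with h0 | ⟨c, hc, f, g, hfF, hgF, hf, hg, hu⟩
  · left
    exact ⟨0, 1, zero_mem _, one_mem _, M1_isInt_zero R, M1_isPrim_one R, by rw [h0, zero_mul]⟩
  · rcases R.mem_or_inv_mem c with h | h
    · left
      exact ⟨HahnSeries.C c * f, g, mul_mem (M1_C_mem_FF N c) hfF, hgF, M1_isInt_C_mul R h hf.1,
        hg, hu⟩
    · right
      refine ⟨HahnSeries.C c⁻¹ * g, f, mul_mem (M1_C_mem_FF N _) hgF, hfF,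
        M1_isInt_C_mul R h hg.1, hf, ?_⟩
      have hf0 := M1_isPrim_ne_zero R hf
      have hC0 : (HahnSeries.C c : LaurentSeries L) ≠ 0 := by
        rw [Ne, map_eq_zero]; exact hc
      have hx0 : (u : LaurentSeries L) ≠ 0 := by
        intro h0
        rw [h0, zero_mul] at hu
        exact mul_ne_zero hC0 hf0 hu.symm
      rw [map_inv₀, IntermediateField.coe_inv]
      field_simp
      rw [mul_comm, hu]

/-- an integral series is primitive or divisible by the uniformizer. -/
theorem M1_isPrim_or_div {f : LaurentSeries L} (hf : IsInt R f) (ϖ : R)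
    (hϖ : IsLocalRing.maximalIdeal R = Ideal.span {ϖ}) (hϖ0 : (ϖ : L) ≠ 0) :
    IsPrim R f ∨ IsInt R (HahnSeries.C (ϖ : L)⁻¹ * f) := by
  by_cases hp : IsPrim R f
  · exact Or.inl hp
  · right
    intro n
    have h1 : f.coeff n ∈ R.nonunits := by
      by_contra hcon
      exact hp ⟨hf, n, hcon⟩
    obtain ⟨ha, hm⟩ := ValuationSubring.mem_nonunits_iff_exists_mem_maximalIdeal.mp h1
    rw [hϖ] at hm
    obtain ⟨r, hr⟩ := Ideal.mem_span_singleton'.mp hm
    have h2 : (r : L) * (ϖ : L) = f.coeff n := congrArg (fun x : R => (x : L)) hr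
    rw [M1_coeff_C_mul, ← h2, mul_comm, mul_assoc, mul_inv_cancel₀ hϖ0, mul_one]
    exact r.2

end M1aux

/-- M1a. The Gauss valuation subring exists. -/
theorem exists_gaussRing {L : Type*} [Field L] (R : ValuationSubring L)
    [IsDiscreteValuationRing R] (N : ℕ) :
    ∃ 𝒪 : ValuationSubring (FF L N), ∀ u, u ∈ 𝒪 ↔ IsGaussInt R N u := by
  refine ⟨{ carrier := {u | IsGaussInt R N u}
            mul_mem' := ?_
            one_mem' := ?_
            add_mem' := ?_
            zero_mem' := ?_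
            neg_mem' := ?_
            mem_or_inv_mem' := ?_ }, fun u => Iff.rfl⟩
  · rintro a b ⟨f, g, hfF, hgF, hf, hg, ha⟩ ⟨f', g', hfF', hgF', hf', hg', hb⟩
    refine ⟨f * f', g * g', mul_mem hfF hfF', mul_mem hgF hgF', M1_isInt_mul R hf hf',
      M1_isPrim_mul R hg hg', ?_⟩
    rw [IntermediateField.coe_mul, ← ha, ← hb]
    ring
  · exact ⟨1, 1, one_mem _, one_mem _, (M1_isPrim_one R).1, M1_isPrim_one R, by
      rw [IntermediateField.coe_one, one_mul]⟩
  · rintro a b ⟨f, g, hfF, hgF, hf, hg, ha⟩ ⟨f', g', hfF', hgF', hf', hg', hb⟩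
    refine ⟨f * g' + f' * g, g * g', add_mem (mul_mem hfF hgF') (mul_mem hfF' hgF),
      mul_mem hgF hgF', M1_isInt_add R (M1_isInt_mul R hf hg'.1) (M1_isInt_mul R hf' hg.1),
      M1_isPrim_mul R hg hg', ?_⟩
    rw [IntermediateField.coe_add, ← ha, ← hb]
    ring
  · exact ⟨0, 1, zero_mem _, one_mem _, M1_isInt_zero R, M1_isPrim_one R, by
      rw [IntermediateField.coe_zero, zero_mul]⟩
  · rintro a ⟨f, g, hfF, hgF, hf, hg, ha⟩
    refine ⟨-f, g, neg_mem hfF, hgF, M1_isInt_neg R hf, hg, ?_⟩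
    rw [IntermediateField.coe_neg, ← ha]
    ring
  · intro u
    exact M1_gaussInt_or_inv R N u

/-- M1b. Its maximal ideal is generated by a uniformizer of `R`. -/
theorem gaussRing_of_spec {L : Type*} [Field L] (R : ValuationSubring L)
    [IsDiscreteValuationRing R] (N : ℕ) (𝒪 : ValuationSubring (FF L N))
    (h𝒪 : ∀ u, u ∈ 𝒪 ↔ IsGaussInt R N u) (ϖ : R) (hϖ : Irreducible ϖ) :
    GaussRing ϖ 𝒪 := by
  have hmax : IsLocalRing.maximalIdeal R = Ideal.span {ϖ} :=
    (IsDiscreteValuationRing.irreducible_iff_uniformizer ϖ).mp hϖ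
  have hϖ0 : (ϖ : L) ≠ 0 := fun h => hϖ.ne_zero (Subtype.ext h)
  have hcoe : ((algebraMap R (FF L N) ϖ : FF L N) : LaurentSeries L) = HahnSeries.C (ϖ : L) := by
    have : ((algebraMap R (FF L N) ϖ : FF L N) : LaurentSeries L)
        = algebraMap L (LaurentSeries L) (ϖ : L) := rfl
    rw [this, algebraMap_laurentSeries_eq_single]
    rfl
  have hC0 : (HahnSeries.C (ϖ : L) : LaurentSeries L) ≠ 0 := by
    rw [Ne, map_eq_zero]; exact hϖ0
  have hne : algebraMap R (FF L N) ϖ ≠ 0 := by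
    intro h
    apply hC0
    rw [← hcoe, h]
    rfl
  refine ⟨hne, ?_, ?_, ?_⟩
  · rw [h𝒪]
    refine ⟨HahnSeries.C (ϖ : L), 1, M1_C_mem_FF N _, one_mem _, ?_, M1_isPrim_one R, ?_⟩
    · have := M1_isInt_C_mul R ϖ.2 (M1_isPrim_one R).1
      rwa [mul_one] at this
    · rw [hcoe, mul_one]
  · rw [h𝒪]
    rintro ⟨f, g, hfF, hgF, hf, hg, h⟩
    rw [IntermediateField.coe_inv, hcoe] at h
    have hg' : g = HahnSeries.C (ϖ : L) * f := by
      rw [← h, ← mul_assoc, mul_inv_cancel₀ hC0, one_mul]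
    obtain ⟨_, n, hn⟩ := hg
    apply hn
    rw [hg', M1_coeff_C_mul]
    have h1 : ϖ * (⟨f.coeff n, hf n⟩ : R) ∈ IsLocalRing.maximalIdeal R := by
      rw [hmax]
      exact Ideal.mul_mem_right _ _ (Ideal.mem_span_singleton_self ϖ)
    exact ValuationSubring.coe_mem_nonunits_iff.mpr h1
  · intro x hx
    rw [h𝒪] at hx
    obtain ⟨f, g, hfF, hgF, hf, hg, h⟩ := hx
    rcases M1_isPrim_or_div R hf ϖ hmax hϖ0 with hp | hd
    · right
      rw [h𝒪]
      refine ⟨g, f, hgF, hfF, hg.1, hp, ?_⟩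
      have hf0 := M1_isPrim_ne_zero R hp
      have hx0 : (x : LaurentSeries L) ≠ 0 := by
        intro h0
        rw [h0, zero_mul] at h
        exact hf0 h.symm
      rw [IntermediateField.coe_inv, ← h, ← mul_assoc, inv_mul_cancel₀ hx0, one_mul]
    · left
      rw [h𝒪]
      refine ⟨HahnSeries.C (ϖ : L)⁻¹ * f, g, mul_mem (M1_C_mem_FF N _) hfF, hgF, hd, hg, ?_⟩
      rw [IntermediateField.coe_div, hcoe, ← h, map_inv₀]
      field_simp

end Fermat.Agent.GR.E
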