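import Fermat.Agent.GR.E.Model

set_option autoImplicit false
set_option synthInstance.maxHeartbeats 400000

noncomputable section

namespace Fermat.Agent.GR.E

open Fermat.Agent.GR ModularCurve AlgebraicCurve IntermediateField

/-- Being defined over `L`. -/
def BR3_DefOver (N : ℕ) (L : IntermediateField ℚ Qb) (u : LaurentSeries Qb) : Prop :=
  ∃ u' ∈ FF L N, coeffMap (algebraMap L Qb) u' = u

theorem BR3_mono (N : ℕ) {L L' : IntermediateField ℚ Qb} (h : L ≤ L') {u : LaurentSeries Qb}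
    (hu : BR3_DefOver N L u) : BR3_DefOver N L' u := by
  obtain ⟨u', hu', rfl⟩ := hu
  refine ⟨coeffMap (IntermediateField.inclusion h).toRingHom u', coeffMap_mem_FF _ N hu', ?_⟩
  rw [coeffMap_coeffMap]
  apply coeffMap_congr
  ext x
  rfl

theorem BR3_single (N : ℕ) (u : LaurentSeries Qb) (hu : u ∈ FF Qb N) :
    ∃ L : IntermediateField ℚ Qb, FiniteDimensional ℚ L ∧ BR3_DefOver N L u := by
  induction hu using IntermediateField.adjoin_induction with
  | mem x hx =>
    obtain ⟨d, hd, hdN, rfl⟩ := hx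
    refine ⟨⊥, inferInstance, qExpand _ d (jqModC _), jqModCd_mem_full _ N hdN, ?_⟩
    rw [coeffMap_qExpand, coeffMap_jqModC]
  | algebraMap c =>
    have : Algebra.IsAlgebraic ℚ Qb := AlgebraicClosure.isAlgebraic ℚ
    refine ⟨ℚ⟮c⟯, IntermediateField.adjoin.finiteDimensional
      (Algebra.IsAlgebraic.isAlgebraic c).isIntegral, algebraMap _ _ (⟨c, mem_adjoin_simple_self ℚ c⟩ : ℚ⟮c⟯),
      (FF _ N).algebraMap_mem _, ?_⟩
    rw [algebraMap_laurentSeries_eq_single, algebraMap_laurentSeries_eq_single, coeffMap_single]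
    rfl
  | add x y _ _ hx hy =>
    obtain ⟨L₁, h₁, hx⟩ := hx
    obtain ⟨L₂, h₂, hy⟩ := hy
    obtain ⟨x', hx', rfl⟩ := BR3_mono N (le_sup_left : L₁ ≤ L₁ ⊔ L₂) hx
    obtain ⟨y', hy', rfl⟩ := BR3_mono N (le_sup_right : L₂ ≤ L₁ ⊔ L₂) hy
    exact ⟨L₁ ⊔ L₂, IntermediateField.finiteDimensional_sup L₁ L₂, x' + y', add_mem hx' hy',
      map_add _ _ _⟩
  | inv x _ hx =>
    obtain ⟨L₁, h₁, x', hx', rfl⟩ := hx
    exact ⟨L₁, h₁, x'⁻¹, inv_mem hx', map_inv₀ _ _⟩
  | mul x y _ _ hx hy =>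
    obtain ⟨L₁, h₁, hx⟩ := hx
    obtain ⟨L₂, h₂, hy⟩ := hy
    obtain ⟨x', hx', rfl⟩ := BR3_mono N (le_sup_left : L₁ ≤ L₁ ⊔ L₂) hx
    obtain ⟨y', hy', rfl⟩ := BR3_mono N (le_sup_right : L₂ ≤ L₁ ⊔ L₂) hy
    exact ⟨L₁ ⊔ L₂, IntermediateField.finiteDimensional_sup L₁ L₂, x' * y', mul_mem hx' hy',
      map_mul _ _ _⟩

/-- BR3. Finitely many elements of `FF Q̄ N` are defined over a number field. -/
theorem exists_level (N : ℕ) (s : Finset (LaurentSeries Qb)) (hs : ∀ u ∈ s, u ∈ FF Qb N) :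
    ∃ L : IntermediateField ℚ Qb, FiniteDimensional ℚ L ∧
      ∀ u ∈ s, ∃ u' ∈ FF L N, coeffMap (algebraMap L Qb) u' = u := by
  classical
  induction s using Finset.induction_on with
  | empty => exact ⟨⊥, inferInstance, by simp⟩
  | insert a s ha ih =>
    obtain ⟨L₁, h₁, hL₁⟩ := ih (fun u hu => hs u (Finset.mem_insert_of_mem hu))
    obtain ⟨L₂, h₂, hL₂⟩ := BR3_single N a (hs a (Finset.mem_insert_self a s))
    refine ⟨L₁ ⊔ L₂, IntermediateField.finiteDimensional_sup L₁ L₂, fun u hu => ?_⟩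
    rcases Finset.mem_insert.mp hu with rfl | hu
    · exact BR3_mono N le_sup_right hL₂
    · exact BR3_mono N le_sup_left (hL₁ u hu)

/-- Abstract form of BR4. -/
theorem BR3_descent_aux {K₁ F₁ K₂ F₂ : Type*} [Field K₁] [Field F₁] [Algebra K₁ F₁]
    [Field K₂] [Field F₂] [Algebra K₂ F₂] (i : K₁ →+* K₂) (φ : F₁ →+* F₂)
    (hconst : ∀ c, φ (algebraMap K₁ F₁ c) = algebraMap K₂ F₂ (i c))
    (hK : ∀ c : K₂, i.IsIntegralElem c) (h u : F₁)
    (hu : IsIntegral (Algebra.adjoin K₂ ({φ h} : Set F₂)) (φ u)) :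
    IsIntegral (Algebra.adjoin K₁ ({h} : Set F₁)) u := by
  set A := Algebra.adjoin K₁ ({h} : Set F₁) with hA
  set B := Algebra.adjoin K₂ ({φ h} : Set F₂) with hB
  have hAB : ∀ a : A, φ.comp (algebraMap A F₁) a ∈ B := by
    rintro ⟨a, ha⟩
    change φ a ∈ B
    induction ha using Algebra.adjoin_induction with
    | mem x hx =>
      rw [Set.mem_singleton_iff.mp hx]
      exact Algebra.subset_adjoin (Set.mem_singleton _)
    | algebraMap c => rw [hconst]; exact B.algebraMap_mem _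
    | add x y _ _ hx hy => rw [map_add]; exact add_mem hx hy
    | mul x y _ _ hx hy => rw [map_mul]; exact mul_mem hx hy
  let ψ : A →+* B := (φ.comp (algebraMap A F₁)).codRestrict B hAB
  let _ : Algebra A B := ψ.toAlgebra
  let _ : Algebra A F₂ := (φ.comp (algebraMap A F₁)).toAlgebra
  have : IsScalarTower A B F₂ := IsScalarTower.of_algebraMap_eq (fun x => rfl)
  have hint : ∀ b ∈ B, IsIntegral A b := by
    intro b hb
    induction hb using Algebra.adjoin_induction with
    | mem x hx =>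
      rw [Set.mem_singleton_iff.mp hx]
      exact isIntegral_algebraMap (R := A) (x := ⟨h, Algebra.subset_adjoin (Set.mem_singleton _)⟩)
    | algebraMap c =>
      obtain ⟨p, hp, hpc⟩ := hK c
      refine ⟨p.map (algebraMap K₁ A), hp.map _, ?_⟩
      rw [Polynomial.eval₂_map,
        show (algebraMap A F₂).comp (algebraMap K₁ A) = (algebraMap K₂ F₂).comp i from
          RingHom.ext hconst,
        ← Polynomial.hom_eval₂, hpc, map_zero]
    | add x y _ _ hx hy => exact hx.add hy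
    | mul x y _ _ hx hy => exact hx.mul hy
  have : Algebra.IsIntegral A B :=
    ⟨fun b => (isIntegral_algebraMap_iff (B := F₂) Subtype.val_injective).mp (hint b b.2)⟩
  have h1 : IsIntegral A (φ u) := isIntegral_trans (R := A) (A := B) (φ u) hu
  let Φ : F₁ →ₐ[A] F₂ := { φ with commutes' := fun a => rfl }
  exact (isIntegral_algHom_iff Φ φ.injective).mp h1

/-- BR4. Integrality over `Q̄[h]` descends to `L[h]`. -/
theorem isIntegral_descent (L : IntermediateField ℚ Qb) (N : ℕ) (h u : FF L N)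
    (hu : IsIntegral (Algebra.adjoin Qb ({mapFF (algebraMap L Qb) N h} : Set (FF Qb N)))
      (mapFF (algebraMap L Qb) N u)) :
    IsIntegral (Algebra.adjoin L ({h} : Set (FF L N))) u := by
  refine BR3_descent_aux (algebraMap L Qb) (mapFF (algebraMap L Qb) N) ?_ ?_ h u hu
  · intro c
    apply Subtype.ext
    change coeffMap (algebraMap L Qb) (algebraMap L (LaurentSeries L) c) =
      algebraMap Qb (LaurentSeries Qb) (algebraMap L Qb c)
    rw [algebraMap_laurentSeries_eq_single, algebraMap_laurentSeries_eq_single, coeffMap_single]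
  · intro c
    have : Algebra.IsAlgebraic ℚ Qb := AlgebraicClosure.isAlgebraic ℚ
    exact ((Algebra.IsAlgebraic.isAlgebraic (R := ℚ) c).isIntegral).tower_top

end Fermat.Agent.GR.E
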