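import Mathlib

/-!
GR-E, abstract setting.  `R` is a discrete valuation ring with uniformizer `ϖ`, `F` a field that is
an `R`-algebra (a function field over `Frac R`), `𝒪` the Gauss valuation subring of `F`.
A chart is the integral closure of `R[S]` in `F`.
-/

set_option autoImplicit false

namespace Fermat.Agent.GR.E

variable (R : Type*) [CommRing R] {F : Type*} [Field F] [Algebra R F]

/-- Integral closure of `R[S]` in `F`, as an `R`-subalgebra of `F`. -/
def chart (S : Set F) : Subalgebra R F :=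
  (integralClosure (Algebra.adjoin R S) F).restrictScalars R

variable {R}

theorem mem_chart {S : Set F} {x : F} :
    x ∈ chart R S ↔ IsIntegral (Algebra.adjoin R S) x := Iff.rfl

/-- `𝒪` is a valuation subring of `F` whose maximal ideal is generated by `ϖ`. -/
structure GaussRing (ϖ : R) (𝒪 : ValuationSubring F) : Prop where
  ne_zero : algebraMap R F ϖ ≠ 0
  mem : algebraMap R F ϖ ∈ 𝒪
  inv_not_mem : (algebraMap R F ϖ)⁻¹ ∉ 𝒪
  unif : ∀ x ∈ 𝒪, x / algebraMap R F ϖ ∈ 𝒪 ∨ x⁻¹ ∈ 𝒪

/-- The part of the chart conditions which is also needed on the overlap chart. -/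
structure SatChart (ϖ : R) (𝒪 : ValuationSubring F) (C : Subalgebra R F) : Prop where
  le : ∀ x ∈ C, x ∈ 𝒪
  sat : ∀ x ∈ C, x / algebraMap R F ϖ ∈ 𝒪 → x / algebraMap R F ϖ ∈ C
  closed : ∀ x : F, IsIntegral C x → x ∈ C

/-- What GR-D exports for the two charts `C = chart R {h}` and `C = chart R {h⁻¹}`. -/
structure GoodChart (ϖ : R) (𝒪 : ValuationSubring F) (C : Subalgebra R F) : Prop
    extends SatChart ϖ 𝒪 C where
  frac : ∀ x ∈ 𝒪, ∃ b ∈ C, b / algebraMap R F ϖ ∉ 𝒪 ∧ x * b ∈ C
  noeth : IsNoetherianRing C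
  dedekind : IsDedekindDomain (C ⧸ Ideal.span {algebraMap R C ϖ})

/-- `n | ord_V(w)` for every valuation subring `V` of `F` containing `Frac R`, phrased without `ord`. -/
def DivisibleAtPlaces (R : Type*) [CommRing R] {F : Type*} [Field F] [Algebra R F]
    (n : ℕ) (w : F) : Prop :=
  ∀ V : ValuationSubring F, (∀ r : R, algebraMap R F r ∈ V) →
    (∀ r : R, (algebraMap R F r)⁻¹ ∈ V) →
      ∃ a : F, a ≠ 0 ∧ a ^ n * w ∈ V ∧ (a ^ n * w)⁻¹ ∈ V

/-- The set `I(C) = {a : a ^ n * w ∈ C}` (sections over `C` of the `n`-th root of `(w)⁻¹`). -/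
def rootSet (C : Subalgebra R F) (n : ℕ) (w : F) : Set F := {a | a ^ n * w ∈ C}

end Fermat.Agent.GR.E
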