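import Fermat.Agent.GR.E.Defs

set_option autoImplicit false

namespace Fermat.Agent.GR.E

variable {R : Type*} [CommRing R] [IsDomain R] [IsDiscreteValuationRing R]
variable {F : Type*} [Field F] [Algebra R F]
variable {ϖ : R} {𝒪 : ValuationSubring F}

theorem E0_exists_pow_mul_mem_adjoin {S : Set F} {s : F} (hs : s ∈ S) (hs0 : s ≠ 0) {x : F}
    (hx : x ∈ Algebra.adjoin R (insert s⁻¹ S)) : ∃ n : ℕ, s ^ n * x ∈ Algebra.adjoin R S := by
  have hsA : s ∈ Algebra.adjoin R S := Algebra.subset_adjoin hs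
  induction hx using Algebra.adjoin_induction with
  | mem y hy =>
    rcases hy with rfl | hy
    · exact ⟨1, by rw [pow_one, mul_inv_cancel₀ hs0]; exact one_mem _⟩
    · exact ⟨0, by rw [pow_zero, one_mul]; exact Algebra.subset_adjoin hy⟩
  | algebraMap a => exact ⟨0, by rw [pow_zero, one_mul]; exact Subalgebra.algebraMap_mem _ a⟩
  | add y z _ _ hy hz =>
    obtain ⟨m, hm⟩ := hy
    obtain ⟨n, hn⟩ := hz
    refine ⟨m + n, ?_⟩
    have : s ^ (m + n) * (y + z) = s ^ n * (s ^ m * y) + s ^ m * (s ^ n * z) := by ring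
    rw [this]
    exact add_mem (mul_mem (pow_mem hsA n) hm) (mul_mem (pow_mem hsA m) hn)
  | mul y z _ _ hy hz =>
    obtain ⟨m, hm⟩ := hy
    obtain ⟨n, hn⟩ := hz
    refine ⟨m + n, ?_⟩
    have : s ^ (m + n) * (y * z) = (s ^ m * y) * (s ^ n * z) := by ring
    rw [this]
    exact mul_mem hm hn

/-- E0a. Integral closure commutes with inverting `s`. -/
theorem exists_pow_mul_mem_chart {S : Set F} {s : F} (hs : s ∈ S) (hs0 : s ≠ 0) {x : F}
    (hx : x ∈ chart R (insert s⁻¹ S)) : ∃ k : ℕ, s ^ k * x ∈ chart R S := by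
  classical
  obtain ⟨p, hmonic, hroot⟩ := mem_chart.mp hx
  have hcoeff : ∀ i, ∃ n : ℕ, s ^ n * (p.coeff i : F) ∈ Algebra.adjoin R S :=
    fun i => E0_exists_pow_mul_mem_adjoin hs hs0 (p.coeff i).2
  choose n hn using hcoeff
  set M : ℕ := ∑ i ∈ Finset.range (p.natDegree + 1), n i with hM
  have hnM : ∀ i ≤ p.natDegree, n i ≤ M := fun i hi =>
    Finset.single_le_sum (f := n) (fun _ _ => Nat.zero_le _)
      (Finset.mem_range.mpr (Nat.lt_succ_of_le hi))
  set q : Polynomial F :=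
    (p.map (algebraMap (Algebra.adjoin R (insert s⁻¹ S)) F)).scaleRoots (s ^ M) with hq
  have hqmonic : q.Monic := (Polynomial.monic_scaleRoots_iff _).mpr (hmonic.map _)
  have hqroot : q.eval (s ^ M * x) = 0 := by
    rw [hq, Polynomial.scaleRoots_eval_mul, Polynomial.eval_map, hroot, mul_zero]
  have hqcoeff : ∀ i, q.coeff i ∈ Algebra.adjoin R S := by
    intro i
    rw [hq, Polynomial.coeff_scaleRoots, Polynomial.coeff_map, hmonic.natDegree_map]
    by_cases hi : i < p.natDegree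
    · have hle : n i ≤ M * (p.natDegree - i) := by
        calc n i ≤ M := hnM i hi.le
          _ = M * 1 := (mul_one M).symm
          _ ≤ M * (p.natDegree - i) := Nat.mul_le_mul_left M (Nat.one_le_iff_ne_zero.mpr (by omega))
      obtain ⟨k, hk⟩ := Nat.exists_eq_add_of_le hle
      have : (s ^ M) ^ (p.natDegree - i) = s ^ k * s ^ n i := by
        rw [← pow_mul, hk, pow_add, mul_comm]
      rw [this, Subalgebra.algebraMap_def, Algebra.algebraMap_self_apply,
        show (p.coeff i : F) * (s ^ k * s ^ n i) = s ^ k * (s ^ n i * (p.coeff i : F)) by ring]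
      exact mul_mem (pow_mem (Algebra.subset_adjoin hs) k) (hn i)
    · rcases (not_lt.mp hi).lt_or_eq with hlt | heq
      · rw [Polynomial.coeff_eq_zero_of_natDegree_lt hlt, map_zero, zero_mul]
        exact zero_mem _
      · rw [← heq, hmonic.coeff_natDegree, map_one, one_mul, Nat.sub_self, pow_zero]
        exact one_mem _
  have hlifts : q ∈ Polynomial.lifts (algebraMap (Algebra.adjoin R S) F) :=
    (Polynomial.lifts_iff_coeff_lifts q).mpr fun i => ⟨⟨q.coeff i, hqcoeff i⟩, rfl⟩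
  obtain ⟨q', hq'q, -, hq'monic⟩ := Polynomial.lifts_and_natDegree_eq_and_monic hlifts hqmonic
  refine ⟨M, mem_chart.mpr ⟨q', hq'monic, ?_⟩⟩
  rw [Polynomial.eval₂_eq_eval_map, hq'q, hqroot]

theorem chart_mono {S S' : Set F} (h : S ⊆ S') : chart R S ≤ chart R S' := by
  intro x hx
  rw [mem_chart] at hx ⊢
  exact hx.map_of_comp_eq
    (Subalgebra.inclusion (Algebra.adjoin_mono h)).toRingHom (RingHom.id F) (by ext; rfl)

theorem subset_chart (S : Set F) : S ⊆ (chart R S : Set F) := by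
  intro x hx
  exact mem_chart.mpr
    (isIntegral_algebraMap (x := (⟨x, Algebra.subset_adjoin hx⟩ : Algebra.adjoin R S)))

theorem chart_closed (S : Set F) (x : F) (hx : IsIntegral (chart R S) x) : x ∈ chart R S := by
  have h2 : IsIntegral (integralClosure (Algebra.adjoin R S) F) x := hx
  exact mem_chart.mpr (isIntegral_trans (A := integralClosure (Algebra.adjoin R S) F) x h2)

/-- E0b. The overlap chart is saturated. -/
theorem satChart_mid {h : F} (hh : h ∈ 𝒪) (hh' : h⁻¹ ∈ 𝒪) (h0 : h ≠ 0)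
    (hC : SatChart ϖ 𝒪 (chart R ({h} : Set F))) :
    SatChart ϖ 𝒪 (chart R ({h, h⁻¹} : Set F)) := by
  have key : ∀ x ∈ chart R ({h, h⁻¹} : Set F), ∃ k : ℕ, h ^ k * x ∈ chart R ({h} : Set F) := by
    intro x hx
    have hx' : x ∈ chart R (insert h⁻¹ ({h} : Set F)) := by
      rw [show insert h⁻¹ ({h} : Set F) = {h, h⁻¹} from Set.pair_comm _ _]
      exact hx
    exact exists_pow_mul_mem_chart (Set.mem_singleton _) h0 hx'
  have hle : chart R ({h} : Set F) ≤ chart R ({h, h⁻¹} : Set F) :=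
    chart_mono (Set.singleton_subset_iff.mpr (Set.mem_insert _ _))
  have hinv : h⁻¹ ∈ chart R ({h, h⁻¹} : Set F) :=
    subset_chart _ (Set.mem_insert_of_mem _ rfl)
  refine ⟨?_, ?_, chart_closed _⟩
  · intro x hx
    obtain ⟨k, hk⟩ := key x hx
    have h1 : h ^ k * x ∈ 𝒪 := hC.le _ hk
    have h2 : x = h⁻¹ ^ k * (h ^ k * x) := by
      rw [← mul_assoc, ← mul_pow, inv_mul_cancel₀ h0, one_pow, one_mul]
    rw [h2]
    exact mul_mem (pow_mem hh' k) h1
  · intro x hx hxo
    obtain ⟨k, hk⟩ := key x hx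
    have h1 : h ^ k * x / algebraMap R F ϖ ∈ 𝒪 := by
      rw [mul_div_assoc]
      exact mul_mem (pow_mem hh k) hxo
    have h2 := hle (hC.sat _ hk h1)
    have h3 : x / algebraMap R F ϖ = h⁻¹ ^ k * (h ^ k * x / algebraMap R F ϖ) := by
      rw [mul_div_assoc, ← mul_assoc, ← mul_pow, inv_mul_cancel₀ h0, one_pow, one_mul]
    rw [h3]
    exact mul_mem (pow_mem hinv k) h2

end Fermat.Agent.GR.E
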