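import Fermat.Agent.GR.Defs
import Fermat.Agent.GR.E.Defs

/-!
GR-E / GR-D: the concrete model.  `L` a field, `R` a valuation subring of `L` which is a DVR,
`FF L N = L(j(q^d) : d ∣ N) ⊆ L((q))`, `𝒪` the Gauss valuation subring of `FF L N`.
This file contains only definitions: it is the interface between GR-D and GR-E.
-/

set_option autoImplicit false
set_option synthInstance.maxHeartbeats 400000

noncomputable section

namespace Fermat.Agent.GR.E

open Fermat.Agent.GR ModularCurve AlgebraicCurve IntermediateField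

abbrev Qb : Type := AlgebraicClosure ℚ

/-- `u = f / g` with `f` integral and `g` integral with nonzero reduction. -/
def IsGaussInt {L : Type*} [Field L] (R : ValuationSubring L) (N : ℕ) (u : FF L N) : Prop :=
  ∃ f g : LaurentSeries L, f ∈ FF L N ∧ g ∈ FF L N ∧ IsInt R f ∧ IsPrim R g ∧
    (u : LaurentSeries L) * g = f

/-- The base function attached to an integral Laurent series `H` (`H = j` or a Hauptmodul). -/
def baseFn (K : Type*) [Field K] (H : LaurentSeries ℤ) : LaurentSeries K :=
  coeffMap (Int.castRingHom K) H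

/-- Everything GR-E needs from GR-D for the model over `R` with base function `h`;
`𝒪` is the Gauss valuation subring. -/
structure ModelData {L : Type*} [Field L] (R : ValuationSubring L) (N : ℕ) (h : FF L N)
    (𝒪 : ValuationSubring (FF L N)) : Prop where
  spec : ∀ u, u ∈ 𝒪 ↔ IsGaussInt R N u
  gauss : ∀ ϖ : R, Irreducible ϖ → GaussRing ϖ 𝒪
  ne_zero : h ≠ 0
  mem : h ∈ 𝒪
  inv_mem : h⁻¹ ∈ 𝒪
  transc : Transcendental R h
  finite : Module.Finite (Algebra.adjoin R ({h} : Set (FF L N)))
    (integralClosure (Algebra.adjoin R ({h} : Set (FF L N))) (FF L N))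
  good0 : ∀ ϖ : R, Irreducible ϖ → GoodChart ϖ 𝒪 (chart R ({h} : Set (FF L N)))
  good1 : ∀ ϖ : R, Irreducible ϖ → GoodChart ϖ 𝒪 (chart R ({h⁻¹} : Set (FF L N)))

/-- What GR-D has to prove for a level `N'` and a base function `H` at a place `A` of `Q̄`. -/
structure HasModel (A : ValuationSubring Qb) (N' : ℕ) (H : LaurentSeries ℤ) : Prop where
  mem : ∀ (K : Type) [Field K] [CharZero K], baseFn K H ∈ FF K N'
  transc : Transcendental Qb (⟨baseFn Qb H, mem Qb⟩ : FF Qb N')
  finDim : FiniteDimensional Qb⟮(⟨baseFn Qb H, mem Qb⟩ : FF Qb N')⟯ (FF Qb N')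
  model : ∀ (L : IntermediateField ℚ Qb) [FiniteDimensional ℚ L],
    IsDiscreteValuationRing (A.comap (algebraMap L Qb)) →
    ∃ 𝒪, ModelData (A.comap (algebraMap L Qb)) N' ⟨baseFn L H, mem L⟩ 𝒪

/-- THE INTERFACE D → E. -/
def ModelExists : Prop :=
  ∀ (N : ℕ) [NeZero N] (ℓ : ℕ), ℓ.Prime → ¬ ℓ ∣ N → ∀ A : ValuationSubring Qb, A.LiesOverPrime ℓ →
    ∃ (N' : ℕ) (H : LaurentSeries ℤ), N' ≠ 0 ∧ N ∣ N' ∧
      (∃ k : ℕ, (FF Qb N).relfinrank (FF Qb N') = ℓ ^ k) ∧ HasModel A N' H

/-- A certificate that the fractional ideal `(w)` of the integral closure of `K[x]` in `F` is an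
`n`-th power. -/
def Certificate (K : Type*) {F : Type*} [Field K] [Field F] [Algebra K F] (x : F) (n : ℕ)
    (w : F) : Prop :=
  ∃ (m : ℕ) (a b : Fin m → F),
    (∀ i, IsIntegral (Algebra.adjoin K ({x} : Set F)) (a i ^ n * w)) ∧
    (∀ i, IsIntegral (Algebra.adjoin K ({x} : Set F)) (b i ^ n * w⁻¹)) ∧ ∑ i, a i * b i = 1

/-- Functoriality of `FF` in the field of constants. -/
theorem coeffMap_mem_FF {K K' : Type*} [Field K] [Field K'] (φ : K →+* K') (N : ℕ)
    {u : LaurentSeries K} (hu : u ∈ FF K N) : coeffMap φ u ∈ FF K' N := by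
  induction hu using IntermediateField.adjoin_induction with
  | mem x hx =>
    obtain ⟨d, hd, hdN, rfl⟩ := hx
    rw [coeffMap_qExpand, coeffMap_jqModC]
    exact jqModCd_mem_full K' N hdN
  | algebraMap c =>
    have : coeffMap φ (algebraMap K (LaurentSeries K) c) = algebraMap K' (LaurentSeries K') (φ c) := by
      rw [algebraMap_laurentSeries_eq_single, algebraMap_laurentSeries_eq_single, coeffMap_single]
    rw [this]
    exact (FF K' N).algebraMap_mem _
  | add x y _ _ hx hy => rw [map_add]; exact add_mem hx hy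
  | inv x _ hx => rw [map_inv₀]; exact inv_mem hx
  | mul x y _ _ hx hy => rw [map_mul]; exact mul_mem hx hy

/-- The map `FF K N → FF K' N` induced by a field homomorphism. -/
def mapFF {K K' : Type*} [Field K] [Field K'] (φ : K →+* K') (N : ℕ) : FF K N →+* FF K' N where
  toFun u := ⟨coeffMap φ u, coeffMap_mem_FF φ N u.2⟩
  map_one' := Subtype.ext (by simp)
  map_mul' a b := Subtype.ext (by simp)
  map_zero' := Subtype.ext (by simp)
  map_add' a b := Subtype.ext (by simp)

@[simp] theorem coe_mapFF {K K' : Type*} [Field K] [Field K'] (φ : K →+* K') (N : ℕ)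
    (u : FF K N) : (mapFF φ N u : LaurentSeries K') = coeffMap φ u := rfl

end Fermat.Agent.GR.E
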