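import Fermat.Agent.GR.E.Model
import Fermat.Agent.GR.F.ValNF

set_option autoImplicit false
set_option synthInstance.maxHeartbeats 400000

noncomputable section

namespace Fermat.Agent.GR.E

open Fermat.Agent.GR ModularCurve AlgebraicCurve IntermediateField

/-- The prime `ℓ` is a nonunit of `A ∩ L`. -/
theorem BR5_not_isUnit_natCast (A : ValuationSubring Qb) (ℓ : ℕ)
    (hA : A.LiesOverPrime ℓ) (L : IntermediateField ℚ Qb) :
    ¬ IsUnit ((ℓ : ℕ) : A.comap (algebraMap L Qb)) := by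
  rintro ⟨u, hu⟩
  have h1 : (ℓ : Qb) ∈ A.nonunits := hA
  rw [ValuationSubring.mem_nonunits_iff] at h1
  -- the inverse of `ℓ` lies in `A`
  have h2 : algebraMap L Qb (((u⁻¹ : (A.comap (algebraMap L Qb))ˣ) : A.comap (algebraMap L Qb)) : L)
      ∈ A := ((u⁻¹ : (A.comap (algebraMap L Qb))ˣ) : A.comap (algebraMap L Qb)).2
  have h3 : ((u : A.comap (algebraMap L Qb)) : L) *
      (((u⁻¹ : (A.comap (algebraMap L Qb))ˣ) : A.comap (algebraMap L Qb)) : L) = 1 :=
    congrArg Subtype.val u.mul_inv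
  rw [hu] at h3
  have h4 : (ℓ : Qb) * algebraMap L Qb
      (((u⁻¹ : (A.comap (algebraMap L Qb))ˣ) : A.comap (algebraMap L Qb)) : L) = 1 := by
    have := congrArg (algebraMap L Qb) h3
    rw [map_mul, map_one] at this
    rw [← this]
    congr 1
  have h5 := congrArg A.valuation h4
  rw [map_mul, map_one] at h5
  have h6 := (A.valuation_le_one_iff _).2 h2
  have h7 : A.valuation (ℓ : Qb) * A.valuation (algebraMap L Qb
      (((u⁻¹ : (A.comap (algebraMap L Qb))ˣ) : A.comap (algebraMap L Qb)) : L)) < 1 :=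
    mul_lt_one_of_lt_of_le h1 h6
  exact h7.ne h5

/-- BR5a. -/
theorem isDiscreteValuationRing_comap (A : ValuationSubring Qb) (ℓ : ℕ) (hℓ : ℓ.Prime)
    (hA : A.LiesOverPrime ℓ) (L : IntermediateField ℚ Qb) [FiniteDimensional ℚ L] :
    IsDiscreteValuationRing (A.comap (algebraMap L Qb)) := by
  have hP : IsPrincipalIdealRing (A.comap (algebraMap L Qb)) := isPrincipalIdealRing_comap A L
  refine { not_a_field' := ?_ }
  rw [ne_eq, ← IsLocalRing.isField_iff_maximalIdeal_eq]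
  intro hf
  have h0 : ((ℓ : ℕ) : A.comap (algebraMap L Qb)) ≠ 0 := by
    exact_mod_cast hℓ.ne_zero
  obtain ⟨b, hb⟩ := hf.mul_inv_cancel h0
  exact BR5_not_isUnit_natCast A ℓ hA L (IsUnit.of_mul_eq_one _ hb)

/-- BR5b. -/
theorem isUnit_natCast_comap (A : ValuationSubring Qb) (ℓ : ℕ) (hℓ : ℓ.Prime)
    (hA : A.LiesOverPrime ℓ) (L : IntermediateField ℚ Qb) (n : ℕ) (hn : ¬ ℓ ∣ n) :
    IsUnit ((n : ℕ) : A.comap (algebraMap L Qb)) := by
  have hcop : Nat.Coprime ℓ n := (Nat.Prime.coprime_iff_not_dvd hℓ).2 hn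
  obtain ⟨α, β, hαβ⟩ := Nat.isCoprime_iff_coprime.2 hcop
  by_contra hnu
  have h1 : ((n : ℕ) : A.comap (algebraMap L Qb)) ∈
      IsLocalRing.maximalIdeal (A.comap (algebraMap L Qb)) := hnu
  have h2 : ((ℓ : ℕ) : A.comap (algebraMap L Qb)) ∈
      IsLocalRing.maximalIdeal (A.comap (algebraMap L Qb)) := BR5_not_isUnit_natCast A ℓ hA L
  have h3 : (1 : A.comap (algebraMap L Qb)) ∈
      IsLocalRing.maximalIdeal (A.comap (algebraMap L Qb)) := by
    have h4 : (1 : A.comap (algebraMap L Qb)) = (α : A.comap (algebraMap L Qb)) * (ℓ : ℕ)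
        + (β : A.comap (algebraMap L Qb)) * (n : ℕ) := by
      exact_mod_cast (congrArg (Int.cast : ℤ → A.comap (algebraMap L Qb)) hαβ).symm
    rw [h4]
    exact Ideal.add_mem _ (Ideal.mul_mem_left _ _ h2) (Ideal.mul_mem_left _ _ h1)
  exact (Ideal.ne_top_iff_one _).1 (IsLocalRing.maximalIdeal.isMaximal _).ne_top h3

end Fermat.Agent.GR.E
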