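import Fermat.Agent.GR.E.Model
import Fermat.Agent.S24.PlacesDedekind
import Fermat.Agent.S24.InducedPlace

set_option autoImplicit false
set_option synthInstance.maxHeartbeats 400000

noncomputable section

namespace Fermat.Agent.GR.E

open Fermat.Agent.GR ModularCurve AlgebraicCurve IntermediateField

section BR1Abstract

open IsDedekindDomain WithZero

variable {D F : Type*} [CommRing D] [IsDedekindDomain D] [Field F] [Algebra D F]
  [IsFractionRing D F]

/-- The ideal of all `d` which are sums `∑ a i * b i` with `a i ^ n * w`, `b i ^ n * w⁻¹ ∈ D`. -/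
def BR1_ideal (D : Type*) {F : Type*} [CommRing D] [Field F] [Algebra D F] (n : ℕ) (w : F) :
    Ideal D where
  carrier := {d | ∃ (m : ℕ) (a b : Fin m → F),
    (∀ i, a i ^ n * w ∈ Set.range (algebraMap D F)) ∧
    (∀ i, b i ^ n * w⁻¹ ∈ Set.range (algebraMap D F)) ∧ ∑ i, a i * b i = algebraMap D F d}
  add_mem' := by
    rintro d d' ⟨m, a, b, ha, hb, hs⟩ ⟨m', a', b', ha', hb', hs'⟩
    refine ⟨m + m', Fin.append a a', Fin.append b b', ?_, ?_, ?_⟩
    · intro i
      refine Fin.addCases (fun j => ?_) (fun j => ?_) i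
      · rw [Fin.append_left]; exact ha j
      · rw [Fin.append_right]; exact ha' j
    · intro i
      refine Fin.addCases (fun j => ?_) (fun j => ?_) i
      · rw [Fin.append_left]; exact hb j
      · rw [Fin.append_right]; exact hb' j
    · rw [Fin.sum_univ_add]
      simp only [Fin.append_left, Fin.append_right]
      rw [hs, hs', map_add]
  zero_mem' := ⟨0, Fin.elim0, Fin.elim0, fun i => i.elim0, fun i => i.elim0, by simp⟩
  smul_mem' := by
    rintro c d ⟨m, a, b, ha, hb, hs⟩
    refine ⟨m, fun i => algebraMap D F c * a i, b, ?_, hb, ?_⟩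
    · intro i
      obtain ⟨r, hr⟩ := ha i
      refine ⟨c ^ n * r, ?_⟩
      rw [map_mul, map_pow, hr]; ring
    · rw [smul_eq_mul, map_mul, ← hs, Finset.mul_sum]
      exact Finset.sum_congr rfl fun i _ => by ring

omit [IsDedekindDomain D] [IsFractionRing D F] in
theorem BR1_mem_ideal {n : ℕ} {w : F} {d : D} (a b : F)
    (ha : a ^ n * w ∈ Set.range (algebraMap D F))
    (hb : b ^ n * w⁻¹ ∈ Set.range (algebraMap D F)) (hab : a * b = algebraMap D F d) :
    d ∈ BR1_ideal D n w :=
  ⟨1, fun _ => a, fun _ => b, fun _ => ha, fun _ => hb, by simpa using hab⟩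

theorem BR1_ideal_eq_top (n : ℕ) (hn : 0 < n) (w : F) (hw : w ≠ 0)
    (hdiv : ∀ v : HeightOneSpectrum D, (n : ℤ) ∣ log (v.valuation F w)) :
    BR1_ideal D n w = ⊤ := by
  by_contra hne
  obtain ⟨P, hP, hle⟩ := Ideal.exists_le_maximal _ hne
  by_cases hbot : P = ⊥
  · -- `D` is a field
    have hfield : IsField D := Ring.isField_iff_maximal_bot.2 (hbot ▸ hP)
    have hsurj : Function.Surjective (algebraMap D F) := by
      intro f
      obtain ⟨r, s, hs, rfl⟩ := IsFractionRing.div_surjective (A := D) f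
      have hs0 : s ≠ 0 := nonZeroDivisors.ne_zero hs
      obtain ⟨t, ht⟩ := hfield.mul_inv_cancel hs0
      refine ⟨r * t, ?_⟩
      have hs' : algebraMap D F s ≠ 0 := by
        simpa using (IsFractionRing.injective D F).ne hs0
      rw [eq_div_iff hs', ← map_mul, mul_assoc, mul_comm t s, ht, mul_one]
    have h1 : (1 : D) ∈ BR1_ideal D n w :=
      BR1_mem_ideal 1 1 (hsurj _) (hsurj _) (by simp)
    exact hP.ne_top ((Ideal.eq_top_iff_one _).2 (hle h1))
  · let v : HeightOneSpectrum D := ⟨P, hP.isPrime, hbot⟩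
    obtain ⟨m, hm⟩ := hdiv v
    obtain ⟨t, ht⟩ := v.valuation_exists_uniformizer F
    have ht0 : t ≠ 0 := by
      rintro rfl
      rw [map_zero] at ht
      exact exp_ne_zero ht.symm
    have hvw : v.valuation F w ≠ 0 := (Valuation.ne_zero_iff _).2 hw
    set x₀ : F := t ^ m with hx₀
    have hx₀0 : x₀ ≠ 0 := zpow_ne_zero _ ht0
    have hval : v.valuation F (x₀ ^ n * w) = 1 := by
      rw [map_mul, map_pow, hx₀, map_zpow₀, ht, ← exp_log hvw, hm, ← exp_zsmul, ← exp_nsmul,
        ← exp_add, ← exp_zero]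
      congr 1
      simp only [smul_eq_mul, nsmul_eq_mul]
      ring
    obtain ⟨c, s, hcs⟩ := v.exists_primeCompl_mul_eq_of_integer (x₀ ^ n * w) hval.le
    have hsP : (s : D) ∉ P := s.2
    have hs1 : v.valuation F (algebraMap D F s) = 1 := by
      refine le_antisymm (v.valuation_le_one _) (not_lt.1 fun h => hsP ?_)
      exact (v.valuation_lt_one_iff_mem (K := F) _).1 h
    have hcP : c ∉ P := by
      intro hc
      have h1 : v.valuation F (algebraMap D F c) < 1 := (v.valuation_lt_one_iff_mem (K := F) _).2 hc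
      rw [← hcs, map_mul, hval, hs1, one_mul] at h1
      exact lt_irrefl _ h1
    have hs0 : algebraMap D F s ≠ 0 := by
      intro h
      rw [h, map_zero] at hs1
      exact zero_ne_one hs1
    have hc0 : algebraMap D F c ≠ 0 := by
      rw [← hcs]
      exact mul_ne_zero (mul_ne_zero (pow_ne_zero _ hx₀0) hw) hs0
    obtain ⟨k, rfl⟩ : ∃ k, n = k + 1 := ⟨n - 1, by omega⟩
    have hmem : c * (s : D) ∈ BR1_ideal D (k + 1) w := by
      refine BR1_mem_ideal (x₀ * algebraMap D F s) (x₀⁻¹ * algebraMap D F c) ?_ ?_ ?_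
      · refine ⟨c * (s : D) ^ k, ?_⟩
        rw [map_mul, map_pow, ← hcs]
        ring
      · refine ⟨c ^ k * (s : D), ?_⟩
        rw [map_mul, map_pow]
        have : algebraMap D F s = algebraMap D F c * (x₀ ^ (k + 1) * w)⁻¹ := by
          rw [← hcs]
          field_simp
        rw [this, mul_pow, inv_pow, pow_succ (algebraMap D F c) k]
        field_simp
      · rw [map_mul]
        field_simp
    exact (hP.isPrime.mem_or_mem (hle hmem)).elim hcP hsP

end BR1Abstract

/-- BR1. Orders divisible by `n` at all places give a certificate on the chart `K[x]`. -/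
theorem exists_certificate {K F : Type} [Field K] [CharZero K] [Field F] [Algebra K F] (x : F)
    (hx : Transcendental K x) [FiniteDimensional K⟮x⟯ F] (n : ℕ) (hn : 0 < n) (w : F) (hw : w ≠ 0)
    (hdiv : ∀ v : Place K F, (n : ℤ) ∣ v.ord w) : Certificate K x n w := by
  have := Fermat.Agent.S24.induced_isDedekindDomain x hx
  have := Fermat.Agent.S24.induced_isFractionRing (K := K) x
  have htop := BR1_ideal_eq_top (D := integralClosure (Algebra.adjoin K {x}) F) n hn w hw
    (fun v => by
      have h := hdiv (Place.ofHeightOneSpectrum (K := K) v)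
      rw [Fermat.Agent.S24.Zeros.ord_ofHeightOneSpectrum] at h
      exact (Int.dvd_neg).1 h)
  have h1 : (1 : integralClosure (Algebra.adjoin K {x}) F) ∈
      BR1_ideal (integralClosure (Algebra.adjoin K {x}) F) n w := by
    rw [htop]; trivial
  obtain ⟨m, a, b, ha, hb, hs⟩ := h1
  refine ⟨m, a, b, fun i => ?_, fun i => ?_, by simpa using hs⟩
  · obtain ⟨r, hr⟩ := ha i
    rw [← hr]
    exact r.2
  · obtain ⟨r, hr⟩ := hb i
    rw [← hr]
    exact r.2

end Fermat.Agent.GR.E
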