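import Fermat.Agent.GR.E.Defs

set_option autoImplicit false

namespace Fermat.Agent.GR.E

variable {R : Type*} [CommRing R] [IsDomain R] [IsDiscreteValuationRing R]
variable {F : Type*} [Field F] [Algebra R F]
variable {ϖ : R} {𝒪 : ValuationSubring F}

/-- An element integral over `R[y]` lies in every valuation subring containing `R` and `y`. -/
private theorem E8_mem_valuationSubring {R : Type*} [CommRing R] {F : Type*} [Field F]
    [Algebra R F] (V : ValuationSubring F) (hV : ∀ r : R, algebraMap R F r ∈ V) {y x : F}
    (hy : y ∈ V) (hx : x ∈ chart R ({y} : Set F)) : x ∈ V := by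
  rw [mem_chart] at hx
  obtain ⟨p, hp, hpx⟩ := hx
  have hle : ∀ a : Algebra.adjoin R ({y} : Set F), (a : F) ∈ V := by
    intro a
    have : Algebra.adjoin R ({y} : Set F) ≤
        { V.toSubring with algebraMap_mem' := hV } := by
      apply Algebra.adjoin_le
      intro z hz
      rw [Set.mem_singleton_iff] at hz
      subst hz
      exact hy
    exact this a.2
  let φ : Algebra.adjoin R ({y} : Set F) →+* V :=
    (algebraMap (Algebra.adjoin R ({y} : Set F)) F).codRestrict V.toSubring hle
  have hint : IsIntegral V x := by
    refine ⟨p.map φ, hp.map φ, ?_⟩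
    rw [Polynomial.eval₂_map]
    exact hpx
  have := (IsIntegrallyClosed.isIntegral_iff (R := V) (K := F)).1 hint
  obtain ⟨z, hz⟩ := this
  rw [← hz]
  exact z.2

/-- E8. Global functions are constants. -/
theorem isIntegral_of_mem_chart_of_mem_chart {h : F} (hh : Transcendental R h) {x : F}
    (h0 : x ∈ chart R ({h} : Set F)) (h1 : x ∈ chart R ({h⁻¹} : Set F)) : IsIntegral R x := by
  by_contra hx
  have hx' : x ∉ (integralClosure R F).toSubring := hx
  obtain ⟨V, hV, hxV⟩ := Subring.exists_le_valuationSubring_of_isIntegrallyClosedIn hx'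
  have hR : ∀ r : R, algebraMap R F r ∈ V := fun r =>
    hV ((integralClosure R F).algebraMap_mem r)
  rcases V.mem_or_inv_mem h with hm | hm
  · exact hxV (E8_mem_valuationSubring V hR hm h0)
  · exact hxV (E8_mem_valuationSubring V hR hm h1)

end Fermat.Agent.GR.E
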