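import Fermat.Agent.GR.E.Model

set_option autoImplicit false
set_option synthInstance.maxHeartbeats 400000

noncomputable section

namespace Fermat.Agent.GR.E

open Fermat.Agent.GR ModularCurve AlgebraicCurve IntermediateField

theorem BR8_eq_zero_of_pow {M₀ : Type*} [MonoidWithZero M₀] [NoZeroDivisors M₀] {a : M₀}
    {d : ℕ} (h : a ^ d = 0) : a = 0 := eq_zero_of_pow_eq_zero h

/-- Abstract form of BR8: `n`-th powers descend along a finite extension of degree prime to `n`. -/
theorem BR8_pow_descent {K M : Type*} [Field K] [Field M] [Algebra K M]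
    {E E' : IntermediateField K M} (hle : E ≤ E') (n : ℕ)
    (hdeg : Nat.Coprime n (E.relfinrank E')) (u z : M) (hu : u ∈ E) (hz : z ∈ E') (hz0 : z ≠ 0)
    (huz : u = z ^ n) : ∃ y ∈ E, y ≠ 0 ∧ u = y ^ n := by
  rw [relfinrank_eq_finrank_of_le hle] at hdeg
  set d := Module.finrank E (extendScalars hle) with hd
  have hu0 : u ≠ 0 := by rw [huz]; exact pow_ne_zero _ hz0
  let u' : E := ⟨u, hu⟩
  let z' : extendScalars hle := ⟨z, hz⟩
  have hu'0 : u' ≠ 0 := fun h => hu0 (congrArg Subtype.val h)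
  have hz'0 : z' ≠ 0 := fun h => hz0 (congrArg Subtype.val h)
  have h1 : algebraMap E (extendScalars hle) u' = z' ^ n := by
    apply Subtype.ext
    exact huz
  have h2 : u' ^ d = (Algebra.norm E z') ^ n := by
    rw [← map_pow, ← h1, Algebra.norm_algebraMap]
  have hν0 : Algebra.norm E z' ≠ 0 := by
    intro h
    rw [h] at h2
    rcases Nat.eq_zero_or_pos n with hn | hn
    · -- then `d = 1` and the extension is trivial
      subst hn
      have hd1 : d = 1 := by simpa using hdeg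
      have hfin : FiniteDimensional E (extendScalars hle) :=
        Module.finite_of_finrank_pos (by rw [← hd, hd1]; exact one_pos)
      exact hz'0 (Algebra.norm_eq_zero_iff.1 h)
    · rw [zero_pow hn.ne'] at h2
      exact hu'0 (BR8_eq_zero_of_pow h2)
  obtain ⟨α, β, hαβ⟩ := (Nat.isCoprime_iff_coprime.2 hdeg)
  refine ⟨((u' ^ α * (Algebra.norm E z') ^ β : E) : M), (u' ^ α * (Algebra.norm E z') ^ β : E).2,
    ?_, ?_⟩
  · intro h
    have : (u' ^ α * (Algebra.norm E z') ^ β : E) = 0 := Subtype.ext h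
    exact mul_ne_zero (zpow_ne_zero _ hu'0) (zpow_ne_zero _ hν0) this
  · have h3 : u' = (u' ^ α * (Algebra.norm E z') ^ β) ^ n := by
      rw [mul_pow, ← zpow_natCast, ← zpow_natCast, ← zpow_mul, ← zpow_mul, mul_comm β,
        zpow_mul _ (n : ℤ) β, zpow_natCast (Algebra.norm E z'), ← h2, ← zpow_natCast u' d, ← zpow_mul,
        ← zpow_add₀ hu'0, mul_comm (d : ℤ), hαβ, zpow_one]
    have h4 := congrArg (Subtype.val) h3
    exact h4

theorem BR8_FF_le (K : Type*) [Field K] {N N' : ℕ} (hNN' : N ∣ N') : FF K N ≤ FF K N' := by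
  unfold FF modularFunctionFieldFullC
  apply IntermediateField.adjoin.mono
  rintro x ⟨d, hne, hd, rfl⟩
  exact ⟨d, hne, hd.trans hNN', rfl⟩

/-- BR8. Descent of `n`-th powers along `FF Q̄ N ⊆ FF Q̄ N'` when the degree is prime to `n`. -/
theorem kummerEquiv_descent (N N' : ℕ) (hNN' : N ∣ N') (n : ℕ)
    (hdeg : Nat.Coprime n ((FF Qb N).relfinrank (FF Qb N')))
    (hfin : (FF Qb N).relfinrank (FF Qb N') ≠ 0)
    (a b : LaurentSeries Qb) (ha : a ∈ FF Qb N) (hb : b ∈ FF Qb N) (hb0 : b ≠ 0)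
    (h : KummerEquiv N' n b a) : KummerEquiv N n b a := by
  obtain ⟨z, hz, hz0, haz⟩ := h
  obtain ⟨y, hy, hy0, hyz⟩ := BR8_pow_descent (BR8_FF_le Qb hNN') n hdeg (a / b) z
    (div_mem ha hb) hz hz0 (by rw [haz]; field_simp)
  refine ⟨y, hy, hy0, ?_⟩
  rw [← hyz]
  field_simp

end Fermat.Agent.GR.E
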