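import Fermat.Agent.GR.E.Model
import Fermat.Agent.S24.PlacesDedekind
import Fermat.Agent.GR.C.PlaceDown

set_option autoImplicit false
set_option synthInstance.maxHeartbeats 400000

noncomputable section

namespace Fermat.Agent.GR.E

open Fermat.Agent.GR ModularCurve AlgebraicCurve IntermediateField

theorem BR8b_FF_le (K : Type*) [Field K] {N N' : ℕ} (h : N ∣ N') : FF K N ≤ FF K N' := by
  rw [FF, modularFunctionFieldFullC, adjoin_le_iff]
  rintro x ⟨d, hne, hdvd, rfl⟩
  have := hne
  exact jqModCd_mem_full K N' (hdvd.trans h)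

/-- BR8b. `IsKummer` goes up along a finite extension of function fields. -/
theorem isKummer_of_dvd (N N' : ℕ) (hNN' : N ∣ N')
    (hfin : (FF Qb N).relfinrank (FF Qb N') ≠ 0) (n : ℕ) (u : LaurentSeries Qb)
    (h : IsKummer (N := N) n u) : IsKummer (N := N') n u := by
  obtain ⟨h0, hmem, hord⟩ := h
  have hle : FF Qb N ≤ FF Qb N' := BR8b_FF_le Qb hNN'
  refine ⟨h0, hle hmem, fun w => ?_⟩
  have h2 : (⟨u, hle hmem⟩ : FF Qb N') =
      (IntermediateField.inclusion hle : FF Qb N →+* FF Qb N') (⟨u, hmem⟩ : FF Qb N) := rfl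
  rw [h2]
  rcases C.exists_place_restrict (K := Qb) (K' := Qb)
    (IntermediateField.inclusion hle : FF Qb N →+* FF Qb N')
    (fun a => ⟨a, rfl⟩) w with h | ⟨v, e, h⟩
  · rw [h]; exact dvd_zero _
  · rw [h]; exact (hord v).mul_left e

end Fermat.Agent.GR.E
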