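import Fermat.Agent.GR.E.BR7
import Fermat.Agent.GR.E.BR8
import Fermat.Agent.GR.E.BR8b

set_option autoImplicit false
set_option synthInstance.maxHeartbeats 400000

noncomputable section

namespace Fermat.Agent.GR.E

open Fermat.Agent.GR ModularCurve AlgebraicCurve IntermediateField

/-- BR9. THE CRUX LEMMA in the shape requested by GR-F. -/
theorem crux_of_modelExists (hD : ModelExists) {N : ℕ} [NeZero N] {ℓ n : ℕ} (hℓp : ℓ.Prime)
    (hℓ : ¬ ℓ ∣ n * N) {A : ValuationSubring Qb} (hA : A.LiesOverPrime ℓ)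
    (a b : LaurentSeries Qb) (ha : a ∈ FF Qb N) (hb : b ∈ FF Qb N) (hpa : IsPrim A a)
    (hib : IsInt A b) (hab : Cong A a b) (hK : IsKummer (N := N) n (a / b)) :
    KummerEquiv N n b a := by
  have hℓn : ¬ ℓ ∣ n := fun h => hℓ (h.mul_right N)
  have hℓN : ¬ ℓ ∣ N := fun h => hℓ (h.mul_left n)
  obtain ⟨N', H, hN'0, hNN', ⟨k, hk⟩, hM⟩ := hD N ℓ hℓp hℓN A hA
  have hfin : (FF Qb N).relfinrank (FF Qb N') ≠ 0 := by
    rw [hk]; exact pow_ne_zero _ hℓp.ne_zero
  have hle := BR8_FF_le Qb hNN'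
  have hb0 : b ≠ 0 := by
    intro h
    apply hK.1
    rw [h, div_zero]
  have h1 := crux_of_hasModel A ℓ hℓp hA N' H hM n hℓn a b (hle ha) (hle hb) hpa hib hab
    (isKummer_of_dvd N N' hNN' hfin n _ hK)
  refine kummerEquiv_descent N N' hNN' n ?_ hfin a b ha hb hb0 h1
  rw [hk]
  exact Nat.Coprime.pow_right k ((Nat.Prime.coprime_iff_not_dvd hℓp).2 hℓn).symm

end Fermat.Agent.GR.E
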