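import Mathlib

set_option autoImplicit false

namespace Fermat.Agent.GR.E

/-- E1a. Nakayama: `P = fA + ϖP`. -/
theorem isPrincipal_of_isPrime_of_not_mem {A : Type*} [CommRing A] [IsDomain A]
    [IsNoetherianRing A] [IsLocalRing A] (ϖ : A) (hϖ : ¬ IsUnit ϖ)
    (hq : IsPrincipalIdealRing (A ⧸ Ideal.span {ϖ}))
    (P : Ideal A) (hP : P.IsPrime) (hϖP : ϖ ∉ P) : P.IsPrincipal := by
  -- the image of `P` in the quotient is principal
  obtain ⟨g, hg⟩ := (hq.principal (P.map (Ideal.Quotient.mk (Ideal.span {ϖ})))).principal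
  -- `g` lies in the image, so lift it to an element of `P`
  have hgmem : g ∈ P.map (Ideal.Quotient.mk (Ideal.span {ϖ})) := by
    rw [hg]; exact Submodule.mem_span_singleton_self g
  obtain ⟨f, hfP, hfg⟩ :=
    (Ideal.mem_map_iff_of_surjective _ Ideal.Quotient.mk_surjective).1 hgmem
  refine ⟨f, le_antisymm ?_ ?_⟩
  · -- Nakayama
    have hfg' : P.FG := IsNoetherian.noetherian P
    have hjac : Ideal.span {ϖ} ≤ Ideal.jacobson (⊥ : Ideal A) := by
      rw [IsLocalRing.jacobson_eq_maximalIdeal ⊥ bot_ne_top, Ideal.span_le,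
        Set.singleton_subset_iff]
      exact (IsLocalRing.mem_maximalIdeal ϖ).2 hϖ
    refine Submodule.le_of_le_smul_of_le_jacobson_bot (I := Ideal.span {ϖ}) hfg' hjac ?_
    intro x hx
    have hxmem : Ideal.Quotient.mk (Ideal.span {ϖ}) x ∈
        P.map (Ideal.Quotient.mk (Ideal.span {ϖ})) := Ideal.mem_map_of_mem _ hx
    rw [hg] at hxmem
    obtain ⟨c, hc⟩ := Submodule.mem_span_singleton.1 hxmem
    obtain ⟨c', rfl⟩ := Ideal.Quotient.mk_surjective c
    rw [← hfg, smul_eq_mul, ← map_mul, Ideal.Quotient.eq, Ideal.mem_span_singleton] at hc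
    obtain ⟨z, hz⟩ := hc
    -- `x = c' f - ϖ z`, and `ϖ z ∈ P`, so `z ∈ P`
    have hzP : z ∈ P := by
      have h1 : ϖ * z ∈ P := by
        rw [← hz]; exact P.sub_mem (P.mul_mem_left _ hfP) hx
      exact (hP.mem_or_mem h1).resolve_left hϖP
    have hxeq : x = c' * f + ϖ * (-z) := by
      have : ϖ * z = c' * f - x := hz.symm
      linear_combination this
    rw [hxeq]
    refine Submodule.add_mem_sup ?_ ?_
    · exact Submodule.mem_span_singleton.2 ⟨c', rfl⟩
    · have : ϖ * (-z) = ϖ • (-z) := rfl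
      rw [this]
      exact Submodule.smul_mem_smul (Ideal.mem_span_singleton_self ϖ) (P.neg_mem hzP)
  · rw [Submodule.span_le, Set.singleton_subset_iff]; exact hfP

/-- E1b. A two-dimensional regular local ring (in the only shape we need) is a UFD. -/
theorem ufd_of_quotient_isPrincipalIdealRing {A : Type*} [CommRing A] [IsDomain A]
    [IsNoetherianRing A] [IsLocalRing A] (ϖ : A) (hϖ : Prime ϖ)
    (hq : IsPrincipalIdealRing (A ⧸ Ideal.span {ϖ})) : UniqueFactorizationMonoid A := by
  refine UniqueFactorizationMonoid.of_forall_isPrincipal_of_height_eq_one ?_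
  intro p hp h1
  by_cases hxp : ϖ ∈ p
  · exact ⟨ϖ, p.eq_span_singleton_of_height_eq_one h1 hxp hϖ⟩
  · exact isPrincipal_of_isPrime_of_not_mem ϖ hϖ.not_isUnit hq p hp hxp

end Fermat.Agent.GR.E
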