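import Mathlib

set_option autoImplicit false

namespace Fermat.Agent.GR.E

private theorem E2_mult_mul {A : Type*} [CommRing A] [IsDomain A] [UniqueFactorizationMonoid A]
    {f : A} (hf : Prime f) {a b : A} (ha : a ≠ 0) (hb : b ≠ 0) :
    multiplicity f (a * b) = multiplicity f a + multiplicity f b :=
  multiplicity_mul hf (FiniteMultiplicity.of_not_isUnit hf.not_isUnit (mul_ne_zero ha hb))

private theorem E2_mult_pow {A : Type*} [CommRing A] [IsDomain A] [UniqueFactorizationMonoid A]
    {f : A} (hf : Prime f) {a : A} (ha : a ≠ 0) (k : ℕ) :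
    multiplicity f (a ^ k) = k * multiplicity f a :=
  (FiniteMultiplicity.of_not_isUnit hf.not_isUnit ha).multiplicity_pow hf

private theorem E2_exists_unit_mul_pow {A : Type*} [CommRing A] [IsDomain A]
    [UniqueFactorizationMonoid A] (n : ℕ) (hn : 0 < n) (x : A) :
    (∀ f : A, Prime f → n ∣ multiplicity f x) → ∃ (u : Aˣ) (z : A), x = u * z ^ n := by
  induction x using UniqueFactorizationMonoid.induction_on_coprime with
  | h0 => intro _; exact ⟨1, 0, by simp [hn.ne']⟩
  | h1 hx => intro _; exact ⟨hx.unit, 1, by simp⟩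
  | hpr i hp =>
    intro h
    obtain ⟨k, hk⟩ := h _ hp
    rw [multiplicity_pow_self_of_prime hp] at hk
    exact ⟨1, _ ^ k, by rw [hk, Units.val_one, one_mul, ← pow_mul, mul_comm]⟩
  | @hcp x y hxy hx hy =>
    intro h
    by_cases hx0 : x = 0
    · exact ⟨1, 0, by simp [hn.ne', hx0]⟩
    by_cases hy0 : y = 0
    · exact ⟨1, 0, by simp [hn.ne', hy0]⟩
    have key : ∀ f : A, Prime f → n ∣ multiplicity f x ∧ n ∣ multiplicity f y := by
      intro f hf
      have h1 := h f hf
      rw [E2_mult_mul hf hx0 hy0] at h1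
      by_cases hfx : f ∣ x
      · have hfy : ¬ f ∣ y := fun hfy => hf.not_isUnit (hxy hfx hfy)
        have : multiplicity f y = 0 := multiplicity_eq_zero.2 hfy
        rw [this] at h1 ⊢
        exact ⟨by simpa using h1, dvd_zero _⟩
      · have : multiplicity f x = 0 := multiplicity_eq_zero.2 hfx
        rw [this] at h1 ⊢
        exact ⟨dvd_zero _, by simpa using h1⟩
    obtain ⟨u, z, rfl⟩ := hx fun f hf => (key f hf).1
    obtain ⟨u', z', rfl⟩ := hy fun f hf => (key f hf).2
    exact ⟨u * u', z * z', by push_cast; ring⟩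

/-- E2a. In a UFD an element of the fraction field all of whose prime valuations are divisible
by `n` is a unit times an `n`-th power. -/
theorem exists_pow_mul_eq_unit {A F : Type*} [CommRing A] [IsDomain A]
    [UniqueFactorizationMonoid A] [Field F] [Algebra A F] [IsFractionRing A F]
    (n : ℕ) (hn : 0 < n) (w : F) (hw : w ≠ 0)
    (h : ∀ f : A, Prime f → ∃ a : F, a ≠ 0 ∧ ∃ s t : A, ¬ f ∣ s ∧ ¬ f ∣ t ∧
      a ^ n * w * algebraMap A F t = algebraMap A F s) :
    ∃ a : F, a ≠ 0 ∧ ∃ ε : Aˣ, a ^ n * w = algebraMap A F (ε : A) := by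
  have hinj : Function.Injective (algebraMap A F) := IsFractionRing.injective A F
  obtain ⟨x, ⟨y, hy⟩, hxy, hw'⟩ := IsFractionRing.exists_reduced_fraction A w
  have hy0 : y ≠ 0 := nonZeroDivisors.ne_zero hy
  have hyF : algebraMap A F y ≠ 0 := fun h0 => hy0 (hinj (by simpa using h0))
  have hwy : w * algebraMap A F y = algebraMap A F x := by
    rw [← hw']; exact IsLocalization.mk'_spec F x ⟨y, hy⟩
  have hx0 : x ≠ 0 := by
    rintro rfl
    rw [map_zero] at hwy
    exact (mul_ne_zero hw hyF) hwy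
  have hxF : algebraMap A F x ≠ 0 := fun h0 => hx0 (hinj (by simpa using h0))
  have key : ∀ f : A, Prime f → n ∣ multiplicity f x ∧ n ∣ multiplicity f y := by
    intro f hf
    obtain ⟨a, ha, s, t, hs, ht, hast⟩ := h f hf
    obtain ⟨p, ⟨q, hq⟩, -, ha'⟩ := IsFractionRing.exists_reduced_fraction A a
    have hq0 : q ≠ 0 := nonZeroDivisors.ne_zero hq
    have hqF : algebraMap A F q ≠ 0 := fun h0 => hq0 (hinj (by simpa using h0))
    have haq : a * algebraMap A F q = algebraMap A F p := by
      rw [← ha']; exact IsLocalization.mk'_spec F p ⟨q, hq⟩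
    have hp0 : p ≠ 0 := by
      rintro rfl
      rw [map_zero] at haq
      exact (mul_ne_zero ha hqF) haq
    have hs0 : s ≠ 0 := fun h0 => hs (h0 ▸ dvd_zero f)
    have ht0 : t ≠ 0 := fun h0 => ht (h0 ▸ dvd_zero f)
    have heq : p ^ n * x * t = s * q ^ n * y := by
      apply hinj
      simp only [map_mul, map_pow]
      rw [← haq, ← hwy, ← hast]
      ring
    have hm := congrArg (multiplicity f) heq
    rw [E2_mult_mul hf (mul_ne_zero (pow_ne_zero n hp0) hx0) ht0,
      E2_mult_mul hf (pow_ne_zero n hp0) hx0, E2_mult_pow hf hp0,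
      E2_mult_mul hf (mul_ne_zero hs0 (pow_ne_zero n hq0)) hy0,
      E2_mult_mul hf hs0 (pow_ne_zero n hq0), E2_mult_pow hf hq0,
      multiplicity_eq_zero.2 hs, multiplicity_eq_zero.2 ht] at hm
    by_cases hfx : f ∣ x
    · have hfy : ¬ f ∣ y := fun hfy => hf.not_isUnit (hxy hfx hfy)
      rw [multiplicity_eq_zero.2 hfy] at hm ⊢
      refine ⟨?_, dvd_zero _⟩
      have h2 : n ∣ n * multiplicity f p + multiplicity f x := by
        have : n * multiplicity f p + multiplicity f x = n * multiplicity f q := by omega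
        rw [this]; exact dvd_mul_right _ _
      exact (Nat.dvd_add_right (dvd_mul_right n _)).1 h2
    · rw [multiplicity_eq_zero.2 hfx] at hm ⊢
      refine ⟨dvd_zero _, ?_⟩
      have h2 : n ∣ n * multiplicity f q + multiplicity f y := by
        have : n * multiplicity f q + multiplicity f y = n * multiplicity f p := by omega
        rw [this]; exact dvd_mul_right _ _
      exact (Nat.dvd_add_right (dvd_mul_right n _)).1 h2
  obtain ⟨u, z, hz⟩ := E2_exists_unit_mul_pow n hn x fun f hf => (key f hf).1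
  obtain ⟨u', z', hz'⟩ := E2_exists_unit_mul_pow n hn y fun f hf => (key f hf).2
  have hz0 : z ≠ 0 := by
    rintro rfl
    exact hx0 (by rw [hz]; simp [hn.ne'])
  have hz0' : z' ≠ 0 := by
    rintro rfl
    exact hy0 (by rw [hz']; simp [hn.ne'])
  have hzF : algebraMap A F z ≠ 0 := fun h0 => hz0 (hinj (by simpa using h0))
  have hzF' : algebraMap A F z' ≠ 0 := fun h0 => hz0' (hinj (by simpa using h0))
  have huF' : algebraMap A F (u' : A) ≠ 0 := fun h0 => u'.ne_zero (hinj (by rw [h0, map_zero]))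
  refine ⟨algebraMap A F z' / algebraMap A F z, div_ne_zero hzF' hzF, u * u'⁻¹, ?_⟩
  have hw2 : w = algebraMap A F x / algebraMap A F y := by
    rw [eq_div_iff hyF, hwy]
  have hinv : algebraMap A F ((u'⁻¹ : Aˣ) : A) * algebraMap A F (u' : A) = 1 := by
    rw [← map_mul]; simp
  rw [hw2, hz, hz']
  simp only [map_mul, map_pow, Units.val_mul]
  rw [div_pow, div_mul_div_comm, div_eq_iff (mul_ne_zero (pow_ne_zero n hzF)
    (mul_ne_zero huF' (pow_ne_zero n hzF')))]
  calc algebraMap A F z' ^ n * (algebraMap A F (u : A) * algebraMap A F z ^ n)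
      = algebraMap A F z' ^ n * (algebraMap A F (u : A) * algebraMap A F z ^ n) * 1 := by ring
    _ = algebraMap A F z' ^ n * (algebraMap A F (u : A) * algebraMap A F z ^ n) *
          (algebraMap A F ((u'⁻¹ : Aˣ) : A) * algebraMap A F (u' : A)) := by rw [hinv]
    _ = _ := by ring

/-- E2b. The localization of a UFD at a prime element, as a valuation subring of the
fraction field. -/
theorem exists_valuationSubring_of_prime {A F : Type*} [CommRing A] [IsDomain A]
    [UniqueFactorizationMonoid A] [Field F] [Algebra A F] [IsFractionRing A F]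
    (f : A) (hf : Prime f) :
    ∃ V : ValuationSubring F, ∀ x : F, x ∈ V ↔
      ∃ s t : A, ¬ f ∣ t ∧ x * algebraMap A F t = algebraMap A F s := by
  have hinj : Function.Injective (algebraMap A F) := IsFractionRing.injective A F
  have h1 : ¬ f ∣ 1 := fun h => hf.not_isUnit (isUnit_of_dvd_one h)
  refine ⟨{ carrier := {x | ∃ s t : A, ¬ f ∣ t ∧ x * algebraMap A F t = algebraMap A F s}
            mul_mem' := ?_
            one_mem' := ⟨1, 1, h1, by simp⟩
            add_mem' := ?_
            zero_mem' := ⟨0, 1, h1, by simp⟩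
            neg_mem' := ?_
            mem_or_inv_mem' := ?_ }, fun x => Iff.rfl⟩
  · rintro x x' ⟨s, t, ht, h⟩ ⟨s', t', ht', h'⟩
    refine ⟨s * s', t * t', fun hd => (hf.dvd_or_dvd hd).elim ht ht', ?_⟩
    rw [map_mul, map_mul, ← h, ← h']; ring
  · rintro x x' ⟨s, t, ht, h⟩ ⟨s', t', ht', h'⟩
    refine ⟨s * t' + s' * t, t * t', fun hd => (hf.dvd_or_dvd hd).elim ht ht', ?_⟩
    rw [map_add, map_mul, map_mul, map_mul, ← h, ← h']; ring
  · rintro x ⟨s, t, ht, h⟩
    exact ⟨-s, t, ht, by rw [map_neg, ← h]; ring⟩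
  · intro x
    obtain ⟨p, ⟨q, hq⟩, hpq, hx⟩ := IsFractionRing.exists_reduced_fraction A x
    have hxq : x * algebraMap A F q = algebraMap A F p := by
      rw [← hx]; exact IsLocalization.mk'_spec F p ⟨q, hq⟩
    by_cases hfq : f ∣ q
    · right
      have hfp : ¬ f ∣ p := fun hfp => hf.not_isUnit (hpq hfp hfq)
      refine ⟨q, p, hfp, ?_⟩
      have hp0 : p ≠ 0 := fun h0 => hfp (h0 ▸ dvd_zero f)
      have hpF : algebraMap A F p ≠ 0 := fun h0 => hp0 (hinj (by simpa using h0))
      have hx0 : x ≠ 0 := by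
        rintro rfl
        rw [zero_mul] at hxq
        exact hpF hxq.symm
      rw [← hxq, ← mul_assoc, inv_mul_cancel₀ hx0, one_mul]
    · left
      exact ⟨p, q, hfq, hxq⟩

end Fermat.Agent.GR.E
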