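import Fermat.Agent.GR.E.Defs
import Fermat.Agent.GR.E.E1
import Fermat.Agent.GR.E.E2

set_option autoImplicit false

namespace Fermat.Agent.GR.E

variable {R : Type*} [CommRing R] [IsDomain R] [IsDiscreteValuationRing R]
variable {F : Type*} [Field F] [Algebra R F]
variable {ϖ : R} {𝒪 : ValuationSubring F}

omit [IsDomain R] [IsDiscreteValuationRing R] in
/-- `F` is the fraction field of a good chart. -/
theorem E3b_isFractionRing {C : Subalgebra R F} (hC : GoodChart ϖ 𝒪 C) : IsFractionRing C F := by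
  refine IsFractionRing.of_field C F fun z => ?_
  have key : ∀ x ∈ 𝒪, ∃ a b : C, (b : F) ≠ 0 ∧ x = (a : F) / (b : F) := by
    intro x hx
    obtain ⟨b, hb, hb', hxb⟩ := hC.frac x hx
    have hb0 : b ≠ 0 := by
      rintro rfl
      exact hb' (by simp)
    exact ⟨⟨x * b, hxb⟩, ⟨b, hb⟩, hb0, by field_simp⟩
  rcases 𝒪.mem_or_inv_mem z with hz | hz
  · obtain ⟨a, b, _, h⟩ := key z hz
    exact ⟨a, b, h⟩
  · obtain ⟨a, b, _, h⟩ := key z⁻¹ hz
    refine ⟨b, a, ?_⟩
    have : z = ((a : F) / (b : F))⁻¹ := by rw [← h, inv_inv]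
    rw [this, inv_div]
    rfl

omit [IsDomain R] [IsDiscreteValuationRing R] in
/-- Elements of a good chart outside a maximal ideal containing `ϖ` are Gauss units. -/
theorem E3b_inv_mem (hG : GaussRing ϖ 𝒪) {C : Subalgebra R F} (hC : GoodChart ϖ 𝒪 C)
    (𝔪 : Ideal C) (hϖ𝔪 : algebraMap R C ϖ ∈ 𝔪) (s : C) (hs : s ∉ 𝔪) : (s : F)⁻¹ ∈ 𝒪 := by
  rcases hG.unif (s : F) (hC.le _ s.2) with h | h
  · exfalso
    apply hs
    have h1 : (s : F) / algebraMap R F ϖ ∈ C := hC.sat _ s.2 h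
    have h2 : s = algebraMap R C ϖ * ⟨_, h1⟩ := by
      apply Subtype.ext
      have := hG.ne_zero
      show (s : F) = algebraMap R F ϖ * ((s : F) / algebraMap R F ϖ)
      field_simp
    rw [h2]
    exact 𝔪.mul_mem_right _ hϖ𝔪
  · exact h

/-- E3b. Local triviality at a closed point of the special fibre. -/
theorem exists_mem_rootSet_not_mem (hϖ : Irreducible ϖ) (hG : GaussRing ϖ 𝒪)
    {C : Subalgebra R F} (hC : GoodChart ϖ 𝒪 C) {n : ℕ} (hn : 0 < n) {w : F}
    (hw : w ∈ 𝒪) (hw' : w⁻¹ ∈ 𝒪) (hw0 : w ≠ 0) (hdiv : DivisibleAtPlaces R n w)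
    (𝔪 : Ideal C) (h𝔪 : 𝔪.IsMaximal) (hϖ𝔪 : algebraMap R C ϖ ∈ 𝔪) :
    ∃ a : F, ∃ h : a ^ n * w ∈ C, (⟨a ^ n * w, h⟩ : C) ∉ 𝔪 := by
  classical
  have : IsFractionRing C F := E3b_isFractionRing hC
  have : IsNoetherianRing C := hC.noeth
  have : IsDedekindDomain (C ⧸ Ideal.span {algebraMap R C ϖ}) := hC.dedekind
  have : 𝔪.IsPrime := h𝔪.isPrime
  have hπ0 : algebraMap R F ϖ ≠ 0 := hG.ne_zero
  let A : Subalgebra C F :=
    Localization.subalgebra.ofField F 𝔪.primeCompl 𝔪.primeCompl_le_nonZeroDivisors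
  have hloc : IsLocalization.AtPrime A 𝔪 :=
    Localization.subalgebra.isLocalization_ofField F _ _
  have : IsLocalRing A := IsLocalization.AtPrime.isLocalRing A 𝔪
  have : IsNoetherianRing A := IsLocalization.isNoetherianRing 𝔪.primeCompl A inferInstance
  have hAmem : ∀ x : F, x ∈ A ↔ ∃ (a s : C) (_ : s ∈ 𝔪.primeCompl),
      x = algebraMap C F a * (algebraMap C F s)⁻¹ := fun x => Iff.rfl
  have hA𝒪 : ∀ x : A, (x : F) ∈ 𝒪 := by
    rintro ⟨x, hx⟩
    obtain ⟨a, s, hs, rfl⟩ := (hAmem x).1 hx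
    exact 𝒪.mul_mem _ _ (hC.le _ a.2) (E3b_inv_mem hG hC 𝔪 hϖ𝔪 s hs)
  -- the uniformizer in `C` and in `A`
  set ϖC : C := algebraMap R C ϖ with hϖC
  set ϖA : A := algebraMap C A ϖC with hϖA
  have hϖAF : (ϖA : F) = algebraMap R F ϖ := rfl
  have hϖA0 : ϖA ≠ 0 := fun h => hπ0 (by rw [← hϖAF, h]; rfl)
  -- `A / ϖ` is a local Dedekind domain, hence a PID
  have hM : Algebra.algebraMapSubmonoid (C ⧸ Ideal.span {ϖC}) 𝔪.primeCompl ≤
      nonZeroDivisors (C ⧸ Ideal.span {ϖC}) := by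
    rintro _ ⟨s, hs, rfl⟩
    apply mem_nonZeroDivisors_of_ne_zero
    intro h0
    apply hs
    have : s ∈ Ideal.span {ϖC} := Ideal.Quotient.eq_zero_iff_mem.1 h0
    exact (Ideal.span_singleton_le_iff_mem _).2 hϖ𝔪 this
  have hdom : IsDomain (A ⧸ (Ideal.span {ϖC}).map (algebraMap C A)) :=
    IsLocalization.isDomain_of_le_nonZeroDivisors (R := C ⧸ Ideal.span {ϖC})
      (A ⧸ (Ideal.span {ϖC}).map (algebraMap C A)) hM
  have hded : IsDedekindDomain (A ⧸ (Ideal.span {ϖC}).map (algebraMap C A)) :=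
    IsLocalization.isDedekindDomain (C ⧸ Ideal.span {ϖC}) hM _
  have hI : (Ideal.span {ϖC}).map (algebraMap C A) = Ideal.span {ϖA} := by
    rw [Ideal.map_span, Set.image_singleton]
  rw [hI] at hded hdom
  have hnt : Nontrivial (A ⧸ Ideal.span {ϖA}) := hdom.toNontrivial
  have hlocq : IsLocalRing (A ⧸ Ideal.span {ϖA}) :=
    IsLocalRing.of_surjective' (Ideal.Quotient.mk _) Ideal.Quotient.mk_surjective
  have hpid : IsPrincipalIdealRing (A ⧸ Ideal.span {ϖA}) :=
    IsDedekindDomain.isPrincipalIdealRing (A ⧸ Ideal.span {ϖA})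
  have hprime : Prime ϖA := by
    rw [← Ideal.span_singleton_prime hϖA0]
    exact (Ideal.Quotient.isDomain_iff_prime _).1 hdom
  have hufd : UniqueFactorizationMonoid A := ufd_of_quotient_isPrincipalIdealRing ϖA hprime hpid
  have hinj : Function.Injective (algebraMap A F) := IsFractionRing.injective A F
  have key : ∀ f : A, Prime f → ∃ a : F, a ≠ 0 ∧ ∃ s t : A, ¬ f ∣ s ∧ ¬ f ∣ t ∧
      a ^ n * w * algebraMap A F t = algebraMap A F s := by
    intro f hf
    by_cases hfϖ : f ∣ ϖA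
    · -- the vertical prime
      have hass : Associated f ϖA := (hf.dvd_prime_iff_associated hprime).1 hfϖ
      obtain ⟨b, hb, hb', hwb⟩ := hC.frac w hw
      have hnd : ∀ x : A, (x : F) / algebraMap R F ϖ ∉ 𝒪 → ¬ f ∣ x := by
        intro x hx hfx
        obtain ⟨y, hy⟩ := hass.dvd_iff_dvd_left.1 hfx
        apply hx
        have : (x : F) = algebraMap R F ϖ * (y : F) := by rw [hy]; rfl
        rw [this, mul_div_cancel_left₀ _ hπ0]
        exact hA𝒪 y
      refine ⟨1, one_ne_zero, algebraMap C A ⟨w * b, hwb⟩, algebraMap C A ⟨b, hb⟩,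
        hnd _ ?_, hnd _ hb', ?_⟩
      · intro h
        apply hb'
        have h3 : b / algebraMap R F ϖ = w⁻¹ * (w * b / algebraMap R F ϖ) := by field_simp
        rw [h3]
        exact 𝒪.mul_mem _ _ hw' h
      · rw [one_pow, one_mul]
        rfl
    · -- a horizontal prime
      obtain ⟨V, hV⟩ := exists_valuationSubring_of_prime (F := F) f hf
      have h1 : ∀ r : R, algebraMap R F r ∈ V := fun r =>
        (hV _).2 ⟨algebraMap C A (algebraMap R C r), 1, hf.not_dvd_one, by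
          rw [map_one, mul_one]; rfl⟩
      have h2 : ∀ r : R, (algebraMap R F r)⁻¹ ∈ V := by
        intro r
        by_cases hr : r = 0
        · rw [hr, map_zero, inv_zero]
          exact V.zero_mem
        obtain ⟨k, u, rfl⟩ := IsDiscreteValuationRing.eq_unit_mul_pow_irreducible hr hϖ
        have hu : IsUnit (algebraMap C A (algebraMap R C (u : R))) :=
          (u.isUnit.map (algebraMap R C)).map (algebraMap C A)
        have hne : algebraMap R F ((u : R) * ϖ ^ k) ≠ 0 := by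
          rw [map_mul, map_pow]
          exact mul_ne_zero (u.isUnit.map (algebraMap R F)).ne_zero (pow_ne_zero _ hπ0)
        refine (hV _).2 ⟨1, algebraMap C A (algebraMap R C ((u : R) * ϖ ^ k)), ?_, ?_⟩
        · rw [map_mul, map_mul, map_pow, map_pow]
          intro hd
          rcases hf.dvd_or_dvd hd with hd | hd
          · exact hf.not_isUnit (isUnit_of_dvd_unit hd hu)
          · exact hfϖ (hf.dvd_of_dvd_pow hd)
        · rw [map_one]
          exact inv_mul_cancel₀ hne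
      obtain ⟨a, ha0, hV1, hV2⟩ := hdiv V h1 h2
      obtain ⟨s₁, t₁, ht₁, e₁⟩ := (hV _).1 hV1
      obtain ⟨s₂, t₂, ht₂, e₂⟩ := (hV _).1 hV2
      refine ⟨a, ha0, s₁, t₁, ?_, ht₁, e₁⟩
      intro hs₁
      have hne : a ^ n * w ≠ 0 := mul_ne_zero (pow_ne_zero _ ha0) hw0
      have e₃ : t₂ * t₁ = s₂ * s₁ := by
        apply hinj
        rw [map_mul, map_mul, ← e₁, ← e₂]
        field_simp
      have : f ∣ t₂ * t₁ := e₃ ▸ Dvd.dvd.mul_left hs₁ s₂
      rcases hf.dvd_or_dvd this with h | h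
      · exact ht₂ h
      · exact ht₁ h
  obtain ⟨a₁, ha₁, ε, hε⟩ := exists_pow_mul_eq_unit n hn w hw0 key
  obtain ⟨c, s', hs', hcs⟩ := (hAmem _).1 (ε : A).2
  have hs'0 : (s' : F) ≠ 0 := by
    intro h
    apply hs'
    have : s' = 0 := Subtype.ext h
    rw [this]
    exact 𝔪.zero_mem
  have hc : c ∈ 𝔪.primeCompl := by
    rw [← IsLocalization.AtPrime.isUnit_to_map_iff A 𝔪 c]
    have hcA : algebraMap C A c = (ε : A) * algebraMap C A s' := by
      apply Subtype.ext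
      show (c : F) = ((ε : A) : F) * (s' : F)
      rw [hcs]
      show (c : F) = (c : F) * (s' : F)⁻¹ * (s' : F)
      field_simp
    rw [hcA]
    exact ε.isUnit.mul ((IsLocalization.AtPrime.isUnit_to_map_iff A 𝔪 s').2 hs')
  obtain ⟨k, rfl⟩ : ∃ k, n = k + 1 := Nat.exists_eq_succ_of_ne_zero hn.ne'
  have e : (a₁ * (s' : F)) ^ (k + 1) * w = ((c * s' ^ k : C) : F) := by
    have h4 : (a₁ * (s' : F)) ^ (k + 1) * w = (a₁ ^ (k + 1) * w) * (s' : F) ^ (k + 1) := by ring
    rw [h4, hε]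
    show ((ε : A) : F) * (s' : F) ^ (k + 1) = (c : F) * (s' : F) ^ k
    rw [hcs]
    show (c : F) * (s' : F)⁻¹ * (s' : F) ^ (k + 1) = (c : F) * (s' : F) ^ k
    rw [pow_succ]
    field_simp
  refine ⟨a₁ * (s' : F), e ▸ (c * s' ^ k : C).2, ?_⟩
  have e' : (⟨(a₁ * (s' : F)) ^ (k + 1) * w, e ▸ (c * s' ^ k : C).2⟩ : C) = c * s' ^ k :=
    Subtype.ext e
  rw [e']
  intro hmem
  rcases (inferInstance : 𝔪.IsPrime).mem_or_mem hmem with h | h
  · exact hc h
  · exact hs' ((inferInstance : 𝔪.IsPrime).mem_of_pow_mem _ h)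

end Fermat.Agent.GR.E
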