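import Mathlib

set_option autoImplicit false

namespace Fermat.Agent.GR.E

/-- E3c. In an integrally closed domain, `x ^ n = t * b ^ n` with `b ≠ 0` forces `b ∣ x`. -/
theorem dvd_of_pow_eq_mul_pow {D : Type*} [CommRing D] [IsDomain D] [IsIntegrallyClosed D]
    (n : ℕ) (hn : 0 < n) (x t b : D) (hb : b ≠ 0) (h : x ^ n = t * b ^ n) : b ∣ x := by
  have hb' : algebraMap D (FractionRing D) b ≠ 0 := by
    simpa using hb
  have hpow : (algebraMap D (FractionRing D) x / algebraMap D (FractionRing D) b) ^ n =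
      algebraMap D (FractionRing D) t := by
    rw [div_pow, ← map_pow, ← map_pow, h, map_mul, mul_div_assoc, div_self, mul_one]
    rw [map_pow]
    exact pow_ne_zero _ hb'
  have hint : IsIntegral D
      (algebraMap D (FractionRing D) x / algebraMap D (FractionRing D) b) :=
    IsIntegral.of_pow hn (hpow ▸ isIntegral_algebraMap)
  obtain ⟨d, hd⟩ := IsIntegrallyClosed.algebraMap_eq_of_integral hint
  refine ⟨d, ?_⟩
  apply IsFractionRing.injective D (FractionRing D)
  rw [map_mul, hd, mul_div_cancel₀ _ hb']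

theorem Small_one_add_pow {C : Type*} [CommRing C] (z : C) (n : ℕ) :
    ∃ e : C, (1 + z) ^ n = 1 + n * z + z ^ 2 * e := by
  induction n with
  | zero => exact ⟨0, by simp⟩
  | succ n ih =>
    obtain ⟨e, he⟩ := ih
    refine ⟨n + e + e * z, ?_⟩
    rw [pow_succ, he]
    push_cast
    ring

/-- E4. Newton refinement of an `n`-th root of `t⁻¹`, `t ≡ 1`. -/
theorem exists_newton {C : Type*} [CommRing C] (ϖ : C) (n : ℕ) (hn : IsUnit (n : C))
    (t : C) (ht : ϖ ∣ t - 1) (m : ℕ) : ∃ s : C, ϖ ∣ s - 1 ∧ ϖ ^ m ∣ s ^ n * t - 1 := by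
  induction m with
  | zero => exact ⟨1, by simp, by simp⟩
  | succ m ih =>
    rcases m with _ | m
    · exact ⟨1, by simp, by simpa using ht⟩
    · obtain ⟨s, hs1, c, hc⟩ := ih
      obtain ⟨u, hu⟩ := hn.exists_right_inv
      obtain ⟨e, he⟩ := Small_one_add_pow (-(ϖ ^ (m + 1) * c * u)) n
      refine ⟨s * (1 + -(ϖ ^ (m + 1) * c * u)), ?_, ?_⟩
      · obtain ⟨d, hd⟩ := hs1
        refine ⟨d - s * (ϖ ^ m * c * u), ?_⟩
        have : s * (1 + -(ϖ ^ (m + 1) * c * u)) - 1 = (s - 1) - s * (ϖ ^ (m + 1) * c * u) := by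
          ring
        rw [this, hd]
        ring
      · have hst : s ^ n * t = 1 + ϖ ^ (m + 1) * c := by rw [← hc]; ring
        refine ⟨ϖ ^ m * (-(c ^ 2) + (1 + ϖ ^ (m + 1) * c) * (c * u) ^ 2 * e), ?_⟩
        rw [mul_pow, mul_right_comm, hst, he]
        have hnu : (n : C) * -(ϖ ^ (m + 1) * c * u) = -(ϖ ^ (m + 1) * c) := by
          linear_combination (-(ϖ ^ (m + 1) * c)) * hu
        rw [hnu]
        ring

end Fermat.Agent.GR.E
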