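import Fermat.Agent.GR.E.Root
import Fermat.Agent.GR.E.Small
import Fermat.Agent.GR.E.E3b

set_option autoImplicit false

namespace Fermat.Agent.GR.E

variable {R : Type*} [CommRing R] [IsDomain R] [IsDiscreteValuationRing R]
variable {F : Type*} [Field F] [Algebra R F]
variable {ϖ : R} {𝒪 : ValuationSubring F}

omit [IsDomain R] [IsDiscreteValuationRing R] in
lemma E3a_mem_span (hG : GaussRing ϖ 𝒪) {C : Subalgebra R F} (hC : SatChart ϖ 𝒪 C) (z : C)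
    (hz : (z : F) / algebraMap R F ϖ ∈ 𝒪) : z ∈ Ideal.span {algebraMap R C ϖ} := by
  rw [Ideal.mem_span_singleton']
  refine ⟨⟨(z : F) / algebraMap R F ϖ, hC.sat z z.2 hz⟩, Subtype.ext ?_⟩
  have := hG.ne_zero
  show (z : F) / algebraMap R F ϖ * algebraMap R F ϖ = z
  field_simp

omit [IsDomain R] [IsDiscreteValuationRing R] in
lemma E3a_div_mem (hG : GaussRing ϖ 𝒪) {C : Subalgebra R F} (z : C)
    (hz : z ∈ Ideal.span {algebraMap R C ϖ}) : (z : F) / algebraMap R F ϖ ∈ C := by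
  rw [Ideal.mem_span_singleton'] at hz
  obtain ⟨y, rfl⟩ := hz
  have := hG.ne_zero
  have e : ((y * algebraMap R C ϖ : C) : F) / algebraMap R F ϖ = y := by
    show (y : F) * algebraMap R F ϖ / algebraMap R F ϖ = y
    field_simp
  rw [e]
  exact y.2

omit [IsDomain R] [IsDiscreteValuationRing R] in
lemma E3a_mem_of_sub_one (hG : GaussRing ϖ 𝒪) {x : F}
    (hx : (x - 1) / algebraMap R F ϖ ∈ 𝒪) : x ∈ 𝒪 := by
  have : x = 1 + algebraMap R F ϖ * ((x - 1) / algebraMap R F ϖ) := by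
    have := hG.ne_zero
    field_simp
    ring
  rw [this]
  exact 𝒪.add_mem _ _ 𝒪.one_mem (𝒪.mul_mem _ _ hG.mem hx)

omit [IsDomain R] [IsDiscreteValuationRing R] in
lemma E3a_mul_sub_one (hG : GaussRing ϖ 𝒪) {x y : F}
    (hx : (x - 1) / algebraMap R F ϖ ∈ 𝒪) (hy : (y - 1) / algebraMap R F ϖ ∈ 𝒪) :
    (x * y - 1) / algebraMap R F ϖ ∈ 𝒪 := by
  have hy' := E3a_mem_of_sub_one hG hy
  have : (x * y - 1) / algebraMap R F ϖ =
      (x - 1) / algebraMap R F ϖ * y + (y - 1) / algebraMap R F ϖ := by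
    ring
  rw [this]
  exact 𝒪.add_mem _ _ (𝒪.mul_mem _ _ hx hy') hy

omit [IsDomain R] [IsDiscreteValuationRing R] in
lemma E3a_pow_sub_one (hG : GaussRing ϖ 𝒪) {x : F}
    (hx : (x - 1) / algebraMap R F ϖ ∈ 𝒪) (i : ℕ) :
    (x ^ i - 1) / algebraMap R F ϖ ∈ 𝒪 := by
  induction i with
  | zero => simp [𝒪.zero_mem]
  | succ i ih => rw [pow_succ]; exact E3a_mul_sub_one hG ih hx

/-- the ideal `J` of reductions of elements of `I(C)` -/
def E3aIdeal (ϖ : R) (𝒪 : ValuationSubring F) {C : Subalgebra R F} (hC : SatChart ϖ 𝒪 C) {n : ℕ}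
    (hn : 0 < n) (w : F) : Ideal C where
  carrier := {c | ∃ a ∈ rootSet C n w, (a - (c : F)) / algebraMap R F ϖ ∈ 𝒪}
  zero_mem' := ⟨0, by
    show (0 : F) ^ n * w ∈ C
    rw [zero_pow hn.ne', zero_mul]
    exact C.zero_mem, by simp [𝒪.zero_mem]⟩
  add_mem' := by
    rintro c c' ⟨a, ha, hac⟩ ⟨a', ha', hac'⟩
    refine ⟨a + a', rootSet_add hC.closed hn ha ha', ?_⟩
    have : (a + a' - ((c + c' : C) : F)) / algebraMap R F ϖ =
        (a - (c : F)) / algebraMap R F ϖ + (a' - (c' : F)) / algebraMap R F ϖ := by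
      push_cast
      ring
    rw [this]
    exact 𝒪.add_mem _ _ hac hac'
  smul_mem' := by
    rintro d c ⟨a, ha, hac⟩
    refine ⟨(d : F) * a, rootSet_mul d.2 ha, ?_⟩
    have : ((d : F) * a - ((d • c : C) : F)) / algebraMap R F ϖ =
        (d : F) * ((a - (c : F)) / algebraMap R F ϖ) := by
      rw [smul_eq_mul]
      push_cast
      ring
    rw [this]
    exact 𝒪.mul_mem _ _ (hC.le _ d.2) hac

/-- E3a. Triviality on a whole chart. -/
theorem exists_mem_rootSet_one (hϖ : Irreducible ϖ) (hG : GaussRing ϖ 𝒪)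
    {C : Subalgebra R F} (hC : GoodChart ϖ 𝒪 C) {n : ℕ} (hn : 0 < n) {w : F}
    (hw1 : (w - 1) / algebraMap R F ϖ ∈ 𝒪) (hdiv : DivisibleAtPlaces R n w) :
    ∃ a : F, a ∈ rootSet C n w ∧ (a - 1) / algebraMap R F ϖ ∈ 𝒪 := by
  set P := algebraMap R F ϖ with hP
  have hP0 : P ≠ 0 := hG.ne_zero
  obtain ⟨hw, hw', hw0⟩ := hG.mem_of_sub_one hw1
  set J := E3aIdeal ϖ 𝒪 hC.toSatChart hn w with hJ
  by_cases hJtop : J = ⊤
  · have h1 : (1 : C) ∈ J := by rw [hJtop]; trivial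
    obtain ⟨a, ha, ha1⟩ := h1
    exact ⟨a, ha, ha1⟩
  exfalso
  obtain ⟨𝔪, h𝔪, hJ𝔪⟩ := Ideal.exists_le_maximal J hJtop
  have hϖJ : algebraMap R C ϖ ∈ J := by
    refine ⟨0, ?_, ?_⟩
    · show (0 : F) ^ n * w ∈ C
      rw [zero_pow hn.ne', zero_mul]
      exact C.zero_mem
    · have : ((0 : F) - ((algebraMap R C ϖ : C) : F)) / algebraMap R F ϖ = -1 := by
        show ((0 : F) - algebraMap R F ϖ) / algebraMap R F ϖ = -1
        rw [zero_sub, neg_div, div_self hP0]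
      rw [this]
      exact 𝒪.neg_mem _ 𝒪.one_mem
  have hϖ𝔪 : algebraMap R C ϖ ∈ 𝔪 := hJ𝔪 hϖJ
  obtain ⟨a, hat, ht𝔪⟩ := exists_mem_rootSet_not_mem hϖ hG hC hn hw hw' hw0 hdiv 𝔪 h𝔪 hϖ𝔪
  have haO : a ∈ 𝒪 := rootSet_subset hC.toSatChart hn hw0 hw' hat
  obtain ⟨b, hbC, hbP, habC⟩ := hC.frac a haO
  have hbO : b ∈ 𝒪 := hC.le _ hbC
  have hbinv : b⁻¹ ∈ 𝒪 := (hG.unif b hbO).resolve_left hbP
  have hb0 : b ≠ 0 := by
    rintro rfl
    apply hbP
    rw [zero_div]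
    exact 𝒪.zero_mem
  set t : C := ⟨a ^ n * w, hat⟩ with ht
  set x : C := ⟨a * b, habC⟩ with hx
  set b' : C := ⟨b, hbC⟩ with hb'
  set I : Ideal C := Ideal.span {algebraMap R C ϖ} with hI
  have hded := hC.dedekind
  -- `x ^ n ≡ t * b ^ n`
  have h1 : x ^ n - t * b' ^ n ∈ I := by
    apply E3a_mem_span hG hC.toSatChart
    have : ((x ^ n - t * b' ^ n : C) : F) / algebraMap R F ϖ =
        -(a ^ n * b ^ n * ((w - 1) / P)) := by
      show ((a * b) ^ n - a ^ n * w * b ^ n) / P = _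
      rw [mul_pow]
      ring
    rw [this]
    exact 𝒪.neg_mem _ (𝒪.mul_mem _ _ (𝒪.mul_mem _ _ (pow_mem haO n) (pow_mem hbO n)) hw1)
  have h2 : (Ideal.Quotient.mk I x) ^ n = Ideal.Quotient.mk I t * (Ideal.Quotient.mk I b') ^ n := by
    rw [← map_pow, ← map_pow, ← map_mul]
    exact (Ideal.Quotient.mk_eq_mk_iff_sub_mem _ _).mpr h1
  have hb'0 : Ideal.Quotient.mk I b' ≠ 0 := by
    intro h0
    apply hbP
    exact hC.le _ (E3a_div_mem hG b' (Ideal.Quotient.eq_zero_iff_mem.mp h0))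
  obtain ⟨cbar, hcbar⟩ := dvd_of_pow_eq_mul_pow n hn _ _ _ hb'0 h2
  obtain ⟨c, rfl⟩ := Ideal.Quotient.mk_surjective cbar
  have h3 : x - b' * c ∈ I := by
    rw [← map_mul] at hcbar
    exact (Ideal.Quotient.mk_eq_mk_iff_sub_mem _ _).mp hcbar
  have hcJ : c ∈ J := by
    refine ⟨a, hat, ?_⟩
    have h4 := hC.le _ (E3a_div_mem hG _ h3)
    have : (a - (c : F)) / algebraMap R F ϖ =
        b⁻¹ * (((x - b' * c : C) : F) / algebraMap R F ϖ) := by
      show (a - (c : F)) / P = b⁻¹ * ((a * b - b * (c : F)) / P)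
      field_simp
    rw [this]
    exact 𝒪.mul_mem _ _ hbinv h4
  have hc𝔪 : c ∈ 𝔪 := hJ𝔪 hcJ
  have h5 : Ideal.Quotient.mk I t = (Ideal.Quotient.mk I c) ^ n := by
    rw [hcbar, mul_pow, mul_comm] at h2
    exact (mul_right_cancel₀ (pow_ne_zero n hb'0) h2).symm
  have h6 : t - c ^ n ∈ I := by
    rw [← map_pow] at h5
    exact (Ideal.Quotient.mk_eq_mk_iff_sub_mem _ _).mp h5
  have hI𝔪 : I ≤ 𝔪 := (Ideal.span_singleton_le_iff_mem 𝔪).mpr hϖ𝔪
  apply ht𝔪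
  have : t = (t - c ^ n) + c ^ n := by ring
  rw [this]
  exact 𝔪.add_mem (hI𝔪 h6) (𝔪.pow_mem_of_mem hc𝔪 n hn)

/-- E4'. Triviality on a whole chart modulo `ϖ ^ m`. -/
theorem exists_mem_rootSet_one_pow (hϖ : Irreducible ϖ) (hG : GaussRing ϖ 𝒪)
    {C : Subalgebra R F} (hC : GoodChart ϖ 𝒪 C) {n : ℕ} (hn : IsUnit (n : R)) {w : F}
    (hw1 : (w - 1) / algebraMap R F ϖ ∈ 𝒪) (hdiv : DivisibleAtPlaces R n w) (m : ℕ) :
    ∃ a : F, a ∈ rootSet C n w ∧ (a - 1) / algebraMap R F ϖ ∈ 𝒪 ∧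
      (a ^ n * w - 1) / algebraMap R F ϖ ^ m ∈ C := by
  have hP0 : algebraMap R F ϖ ≠ 0 := hG.ne_zero
  have hn0 : 0 < n := by
    rcases Nat.eq_zero_or_pos n with h | h
    · subst h
      simp at hn
    · exact h
  obtain ⟨a, ha, ha1⟩ := exists_mem_rootSet_one hϖ hG hC hn0 hw1 hdiv
  set t : C := ⟨a ^ n * w, ha⟩ with ht
  have ht1 : algebraMap R C ϖ ∣ t - 1 := by
    rw [← Ideal.mem_span_singleton]
    apply E3a_mem_span hG hC.toSatChart
    exact E3a_mul_sub_one hG (E3a_pow_sub_one hG ha1 n) hw1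
  have hnC : IsUnit (n : C) := by
    have := hn.map (algebraMap R C)
    rwa [map_natCast] at this
  obtain ⟨s, hs1, hsm⟩ := exists_newton (algebraMap R C ϖ) n hnC t ht1 m
  refine ⟨(s : F) * a, rootSet_mul s.2 ha, ?_, ?_⟩
  · apply E3a_mul_sub_one hG _ ha1
    rw [← Ideal.mem_span_singleton] at hs1
    exact hC.le _ (E3a_div_mem hG _ hs1)
  · obtain ⟨y, hy⟩ := hsm
    have hy' : ((s : F) * a) ^ n * w - 1 = algebraMap R F ϖ ^ m * (y : F) := by
      have := congrArg (Subtype.val) hy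
      rw [mul_pow, mul_assoc]
      exact this
    rw [hy']
    have : algebraMap R F ϖ ^ m * (y : F) / algebraMap R F ϖ ^ m = y := by
      field_simp
    rw [this]
    exact y.2

end Fermat.Agent.GR.E
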