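import Fermat.Agent.GR.E.Root

set_option autoImplicit false

namespace Fermat.Agent.GR.E

variable {R : Type*} [CommRing R] [IsDomain R] [IsDiscreteValuationRing R]
variable {F : Type*} [Field F] [Algebra R F]
variable {ϖ : R} {𝒪 : ValuationSubring F}

omit [IsDomain R] [IsDiscreteValuationRing R] in
lemma E5_mem_of_sub_one (hG : GaussRing ϖ 𝒪) {x : F}
    (hx : (x - 1) / algebraMap R F ϖ ∈ 𝒪) : x ∈ 𝒪 := by
  have : x = 1 + algebraMap R F ϖ * ((x - 1) / algebraMap R F ϖ) := by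
    have := hG.ne_zero
    field_simp
    ring
  rw [this]
  exact 𝒪.add_mem _ _ 𝒪.one_mem (𝒪.mul_mem _ _ hG.mem hx)

omit [IsDomain R] [IsDiscreteValuationRing R] in
lemma E5_mul_sub_one (hG : GaussRing ϖ 𝒪) {x y : F}
    (hx : (x - 1) / algebraMap R F ϖ ∈ 𝒪) (hy : (y - 1) / algebraMap R F ϖ ∈ 𝒪) :
    (x * y - 1) / algebraMap R F ϖ ∈ 𝒪 := by
  have hy' := E5_mem_of_sub_one hG hy
  have : (x * y - 1) / algebraMap R F ϖ =
      (x - 1) / algebraMap R F ϖ * y + (y - 1) / algebraMap R F ϖ := by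
    ring
  rw [this]
  exact 𝒪.add_mem _ _ (𝒪.mul_mem _ _ hx hy') hy

omit [IsDomain R] [IsDiscreteValuationRing R] in
lemma E5_pow_sub_one (hG : GaussRing ϖ 𝒪) {x : F}
    (hx : (x - 1) / algebraMap R F ϖ ∈ 𝒪) (i : ℕ) :
    (x ^ i - 1) / algebraMap R F ϖ ∈ 𝒪 := by
  induction i with
  | zero => simp [𝒪.zero_mem]
  | succ i ih => rw [pow_succ]; exact E5_mul_sub_one hG ih hx

/-- E5. Comparison on the overlap. -/
theorem sub_div_pow_mem_rootSet (hϖ : Irreducible ϖ) (hG : GaussRing ϖ 𝒪)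
    {C : Subalgebra R F} (hC : SatChart ϖ 𝒪 C) {n : ℕ} (hn : IsUnit (n : R)) {w : F}
    (hw1 : (w - 1) / algebraMap R F ϖ ∈ 𝒪) {a₀ a₁ : F} {m : ℕ}
    (h₀ : a₀ ∈ rootSet C n w) (h₁ : a₁ ∈ rootSet C n w)
    (h₀' : (a₀ - 1) / algebraMap R F ϖ ∈ 𝒪) (h₁' : (a₁ - 1) / algebraMap R F ϖ ∈ 𝒪)
    (h₀m : (a₀ ^ n * w - 1) / algebraMap R F ϖ ^ m ∈ C)
    (h₁m : (a₁ ^ n * w - 1) / algebraMap R F ϖ ^ m ∈ C) :
    (a₀ - a₁) / algebraMap R F ϖ ^ m ∈ rootSet C n w := by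
  set P := algebraMap R F ϖ with hP
  have hP0 : P ≠ 0 := hG.ne_zero
  have hn0 : 0 < n := by
    rcases Nat.eq_zero_or_pos n with h | h
    · subst h
      simp at hn
    · exact h
  obtain ⟨hw, hw', hw0⟩ := hG.mem_of_sub_one hw1
  have hRO : ∀ r : R, algebraMap R F r ∈ 𝒪 := fun r => hC.le _ (C.algebraMap_mem r)
  -- the sum `S`
  set S := ∑ i ∈ Finset.range n, a₀ ^ i * a₁ ^ (n - 1 - i) with hS
  have hSn : (S - (n : F)) / P ∈ 𝒪 := by
    have : (S - (n : F)) / P = ∑ i ∈ Finset.range n, (a₀ ^ i * a₁ ^ (n - 1 - i) - 1) / P := by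
      rw [← Finset.sum_div, Finset.sum_sub_distrib, Finset.sum_const, Finset.card_range,
        nsmul_eq_mul, mul_one]
    rw [this]
    exact sum_mem fun i _ => E5_mul_sub_one hG (E5_pow_sub_one hG h₀' i) (E5_pow_sub_one hG h₁' _)
  have hnO : (n : F) ∈ 𝒪 := natCast_mem 𝒪 n
  have hSO : S ∈ 𝒪 := by
    have : S = (n : F) + P * ((S - (n : F)) / P) := by
      field_simp
      ring
    rw [this]
    exact 𝒪.add_mem _ _ hnO (𝒪.mul_mem _ _ hG.mem hSn)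
  obtain ⟨u, hu⟩ := hn
  have h1 : (n : F) * algebraMap R F ((u⁻¹ : Rˣ) : R) = 1 := by
    rw [← map_natCast (algebraMap R F), ← hu, ← map_mul, Units.mul_inv, map_one]
  have hnP : (n : F) / P ∉ 𝒪 := by
    intro hn'
    apply hG.inv_not_mem
    have : P⁻¹ = algebraMap R F ((u⁻¹ : Rˣ) : R) * ((n : F) / P) := by
      rw [mul_div_assoc', mul_comm _ (n : F), h1, one_div]
    rw [← hP, this]
    exact 𝒪.mul_mem _ _ (hRO _) hn'
  have hSP : S / P ∉ 𝒪 := by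
    intro h
    apply hnP
    have : (n : F) / P = S / P - (S - (n : F)) / P := by ring
    rw [this]
    exact 𝒪.sub_mem h hSn
  have hSinv : S⁻¹ ∈ 𝒪 := (hG.unif S hSO).resolve_left hSP
  have hS0 : S ≠ 0 := by
    intro h0
    apply hSP
    rw [h0, zero_div]
    exact 𝒪.zero_mem
  have hgeom : S * (a₀ - a₁) = a₀ ^ n - a₁ ^ n := geom_sum₂_mul a₀ a₁ n
  have hb : (a₀ - a₁) / P ^ m ∈ 𝒪 := by
    have : (a₀ - a₁) / P ^ m =
        S⁻¹ * w⁻¹ * ((a₀ ^ n * w - 1) / P ^ m - (a₁ ^ n * w - 1) / P ^ m) := by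
      have h2 : (a₀ ^ n * w - 1) / P ^ m - (a₁ ^ n * w - 1) / P ^ m =
          S * (a₀ - a₁) * w / P ^ m := by
        rw [hgeom]
        ring
      rw [h2]
      field_simp
    rw [this]
    exact 𝒪.mul_mem _ _ (𝒪.mul_mem _ _ hSinv hw') (𝒪.sub_mem (hC.le _ h₀m) (hC.le _ h₁m))
  have hbroot : a₀ - a₁ ∈ rootSet C n w := by
    rw [sub_eq_add_neg]
    exact rootSet_add hC.closed hn0 h₀ (rootSet_neg h₁)
  have hx : (a₀ - a₁) ^ n * w ∈ C := hbroot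
  have key : (a₀ - a₁) ^ n * w / P ^ (m * n) ∈ C := by
    apply hC.sat_pow (m * n) hx
    have : (a₀ - a₁) ^ n * w / P ^ (m * n) = ((a₀ - a₁) / P ^ m) ^ n * w := by
      rw [div_pow, ← pow_mul]
      ring
    rw [← hP, this]
    exact 𝒪.mul_mem _ _ (pow_mem hb n) hw
  show ((a₀ - a₁) / P ^ m) ^ n * w ∈ C
  have : ((a₀ - a₁) / P ^ m) ^ n * w = (a₀ - a₁) ^ n * w / P ^ (m * n) := by
    rw [div_pow, ← pow_mul]
    ring
  rw [this]
  exact key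

end Fermat.Agent.GR.E
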