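import Mathlib

set_option autoImplicit false

namespace Fermat.Agent.GR.E

variable {R : Type*} [CommRing R] [IsDomain R] [IsDiscreteValuationRing R]
variable {F : Type*} [Field F] [Algebra R F]
variable {ϖ : R} {𝒪 : ValuationSubring F}

/-- Bounded `ϖ`-power torsion of a finitely generated module modulo a submodule `L`. -/
private theorem E6a_bound_of_fg (L N : Submodule R F) (hN : N.FG) :
    ∃ m₀ : ℕ, ∀ y ∈ N, ∀ m : ℕ, ϖ ^ m • y ∈ L → ϖ ^ m₀ • y ∈ L := by
  classical
  -- the torsion part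
  let T : Submodule R F :=
    { carrier := {y | y ∈ N ∧ ∃ m : ℕ, ϖ ^ m • y ∈ L}
      zero_mem' := ⟨N.zero_mem, 0, by simp⟩
      add_mem' := by
        rintro a b ⟨ha, m, hm⟩ ⟨hb, k, hk⟩
        refine ⟨N.add_mem ha hb, m + k, ?_⟩
        rw [smul_add]
        refine L.add_mem ?_ ?_
        · rw [pow_add, mul_comm, mul_smul]
          exact L.smul_mem _ hm
        · rw [pow_add, mul_smul]
          exact L.smul_mem _ hk
      smul_mem' := by
        rintro r a ⟨ha, m, hm⟩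
        refine ⟨N.smul_mem r ha, m, ?_⟩
        rw [smul_comm]
        exact L.smul_mem _ hm }
  have hTN : T ≤ N := fun y hy => hy.1
  have hT : T.FG := Submodule.FG.of_le hN hTN
  obtain ⟨t, ht⟩ := hT
  have hmem : ∀ y ∈ t, ∃ m : ℕ, ϖ ^ m • y ∈ L := by
    intro y hy
    have : y ∈ T := ht ▸ Submodule.subset_span hy
    exact this.2
  choose! f hf using hmem
  refine ⟨t.sup f, ?_⟩
  intro y hy m hm
  have hyT : y ∈ T := ⟨hy, m, hm⟩
  rw [← ht] at hyT
  clear hy hm
  induction hyT using Submodule.span_induction with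
  | mem x hx =>
    have hle : f x ≤ t.sup f := Finset.le_sup (f := f) hx
    obtain ⟨d, hd⟩ := Nat.exists_eq_add_of_le hle
    rw [hd, pow_add, mul_comm, mul_smul]
    exact L.smul_mem _ (hf x hx)
  | zero => simp
  | add a b _ _ iha ihb =>
    rw [smul_add]
    exact L.add_mem iha ihb
  | smul r a _ iha =>
    rw [smul_comm]
    exact L.smul_mem _ iha

/-- E6a. Finite generation of a Cech `H¹` and bounded torsion, module version.
`M0` is stable under `h` and generated over `R[h]` by the finite set `s`, `M1` is stable under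
`h⁻¹`, and `M01 = ⋃ h⁻ᵏ M0`, `M0 ⊆ ⋃ hᵏ M1`. -/
theorem exists_torsion_bound (hϖ : Irreducible ϖ) (h : F) (h0 : h ≠ 0)
    (M0 M1 M01 : Submodule R F)
    (hM0 : ∀ x ∈ M0, h * x ∈ M0) (hM1 : ∀ x ∈ M1, h⁻¹ * x ∈ M1)
    (s : Finset F)
    (hs : ∀ x ∈ M0, ∃ p : F → Polynomial R, x = ∑ e ∈ s, Polynomial.aeval h (p e) * e)
    (hs1 : ∀ e ∈ s, ∃ k : ℕ, h⁻¹ ^ k * e ∈ M1)
    (hs0 : ∀ e ∈ s, e ∈ M0)
    (hM01 : ∀ x ∈ M01, ∃ k : ℕ, h ^ k * x ∈ M0) :
    ∃ m₀ : ℕ, ∀ c ∈ M01, ∀ m : ℕ, ϖ ^ m • c ∈ M0 ⊔ M1 → ϖ ^ m₀ • c ∈ M0 ⊔ M1 := by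
  classical
  -- powers of `h` preserve `M0`, powers of `h⁻¹` preserve `M1`
  have hM0p : ∀ (k : ℕ), ∀ x ∈ M0, h ^ k * x ∈ M0 := by
    intro k
    induction k with
    | zero => intro x hx; simpa using hx
    | succ k ih =>
      intro x hx
      rw [pow_succ', mul_assoc]
      exact hM0 _ (ih x hx)
  have hM1p : ∀ (k : ℕ), ∀ x ∈ M1, h⁻¹ ^ k * x ∈ M1 := by
    intro k
    induction k with
    | zero => intro x hx; simpa using hx
    | succ k ih =>
      intro x hx
      rw [pow_succ', mul_assoc]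
      exact hM1 _ (ih x hx)
  choose! f hf using hs1
  set c₀ : ℕ := s.sup f with hc₀
  have hbig : ∀ e ∈ s, ∀ k : ℕ, c₀ ≤ k → h⁻¹ ^ k * e ∈ M1 := by
    intro e he k hk
    have hle : f e ≤ k := le_trans (Finset.le_sup (f := f) he) hk
    obtain ⟨d, rfl⟩ := Nat.exists_eq_add_of_le hle
    rw [add_comm, pow_add, mul_assoc]
    exact hM1p d _ (hf e he)
  -- the finitely generated complement
  let G : Finset F := (s ×ˢ Finset.range c₀).image (fun ek => h⁻¹ ^ ek.2 * ek.1)
  let N : Submodule R F := Submodule.span R (G : Set F)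
  have hNfg : N.FG := ⟨G, rfl⟩
  have hsmall : ∀ e ∈ s, ∀ k : ℕ, k < c₀ → h⁻¹ ^ k * e ∈ N := by
    intro e he k hk
    apply Submodule.subset_span
    simp only [G, Finset.coe_image, Set.mem_image, Finset.mem_coe, Finset.mem_product,
      Finset.mem_range]
    exact ⟨(e, k), ⟨he, hk⟩, rfl⟩
  set L : Submodule R F := M0 ⊔ M1 with hL
  have hM0L : M0 ≤ L := le_sup_left
  have hM1L : M1 ≤ L := le_sup_right
  -- monomials
  have hmono : ∀ e ∈ s, ∀ k i : ℕ, h⁻¹ ^ k * (h ^ i * e) ∈ L ⊔ N := by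
    intro e he k i
    rcases le_total k i with hki | hik
    · obtain ⟨d, rfl⟩ := Nat.exists_eq_add_of_le hki
      have : h⁻¹ ^ k * (h ^ (k + d) * e) = h ^ d * e := by
        rw [pow_add, inv_pow]
        field_simp
      rw [this]
      exact Submodule.mem_sup_left (hM0L (hM0p d e (hs0 e he)))
    · obtain ⟨d, rfl⟩ := Nat.exists_eq_add_of_le hik
      have : h⁻¹ ^ (i + d) * (h ^ i * e) = h⁻¹ ^ d * e := by
        rw [pow_add, inv_pow, inv_pow]
        field_simp
      rw [this]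
      rcases lt_or_ge d c₀ with hd | hd
      · exact Submodule.mem_sup_right (hsmall e he d hd)
      · exact Submodule.mem_sup_left (hM1L (hbig e he d hd))
  have hpoly : ∀ e ∈ s, ∀ (k : ℕ) (p : Polynomial R),
      h⁻¹ ^ k * (Polynomial.aeval h p * e) ∈ L ⊔ N := by
    intro e he k p
    induction p using Polynomial.induction_on' with
    | add p q hp hq =>
      rw [map_add, add_mul, mul_add]
      exact (L ⊔ N).add_mem hp hq
    | monomial i a =>
      have : h⁻¹ ^ k * (Polynomial.aeval h (Polynomial.monomial i a) * e)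
          = a • (h⁻¹ ^ k * (h ^ i * e)) := by
        rw [Polynomial.aeval_monomial, Algebra.smul_def]
        ring
      rw [this]
      exact (L ⊔ N).smul_mem a (hmono e he k i)
  have hle : M01 ≤ L ⊔ N := by
    intro x hx
    obtain ⟨k, hk⟩ := hM01 x hx
    obtain ⟨p, hp⟩ := hs _ hk
    have hx' : x = ∑ e ∈ s, h⁻¹ ^ k * (Polynomial.aeval h (p e) * e) := by
      rw [← Finset.mul_sum, ← hp, inv_pow]
      field_simp
    rw [hx']
    exact (L ⊔ N).sum_mem (fun e he => hpoly e he k (p e))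
  obtain ⟨m₀, hm₀⟩ := E6a_bound_of_fg (ϖ := ϖ) L N hNfg
  refine ⟨m₀, ?_⟩
  intro c hc m hm
  obtain ⟨a, ha, y, hy, rfl⟩ := Submodule.mem_sup.mp (hle hc)
  have hy' : ϖ ^ m • y ∈ L := by
    have : ϖ ^ m • y = ϖ ^ m • (a + y) - ϖ ^ m • a := by
      rw [smul_add]; abel
    rw [this]
    exact L.sub_mem hm (L.smul_mem _ ha)
  rw [smul_add]
  exact L.add_mem (L.smul_mem _ ha) (hm₀ y hy m hy')

end Fermat.Agent.GR.E
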