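import Fermat.Agent.GR.E.Root
import Fermat.Agent.GR.E.E0
import Fermat.Agent.GR.E.E6a

set_option autoImplicit false

namespace Fermat.Agent.GR.E

variable {R : Type*} [CommRing R] [IsDomain R] [IsDiscreteValuationRing R]
variable {F : Type*} [Field F] [Algebra R F]
variable {ϖ : R} {𝒪 : ValuationSubring F}

/-- `I(C)` as an `R`-submodule of `F`. -/
def E6b_rootSubmodule (S : Set F) {n : ℕ} (hn : 0 < n) (w : F) : Submodule R F where
  carrier := rootSet (chart R S) n w
  add_mem' := fun ha hb => rootSet_add (chart_closed S) hn ha hb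
  zero_mem' := by
    show (0 : F) ^ n * w ∈ chart R S
    rw [zero_pow hn.ne', zero_mul]
    exact zero_mem _
  smul_mem' := fun r x hx => by
    rw [Algebra.smul_def]
    exact rootSet_mul (Subalgebra.algebraMap_mem _ r) hx

theorem E6b_mem_rootSubmodule {S : Set F} {n : ℕ} (hn : 0 < n) {w x : F} :
    x ∈ E6b_rootSubmodule (R := R) S hn w ↔ x ∈ rootSet (chart R S) n w := Iff.rfl

omit [IsDomain R] [IsDiscreteValuationRing R] in
theorem E6b_coe_mem_chart (S : Set F) (a : Algebra.adjoin R S) : (a : F) ∈ chart R S :=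
  mem_chart.mpr (isIntegral_algebraMap (R := Algebra.adjoin R S) (A := F) (x := a))

/-- `I(C)` as a module over `R[S]`. -/
def E6b_rootSubmoduleA (S : Set F) {n : ℕ} (hn : 0 < n) (w : F) :
    Submodule (Algebra.adjoin R S) F where
  carrier := rootSet (chart R S) n w
  add_mem' := fun ha hb => rootSet_add (chart_closed S) hn ha hb
  zero_mem' := by
    show (0 : F) ^ n * w ∈ chart R S
    rw [zero_pow hn.ne', zero_mul]
    exact zero_mem _
  smul_mem' := fun a x hx => by
    rw [Algebra.smul_def]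
    exact rootSet_mul (E6b_coe_mem_chart S a) hx

theorem E6b_isNoetherianRing_adjoin (h : F) :
    IsNoetherianRing (Algebra.adjoin R ({h} : Set F)) := by
  have h1 : (Algebra.adjoin R ({h} : Set F)).FG :=
    ⟨{h}, by simp⟩
  have h2 : Algebra.FiniteType R (Algebra.adjoin R ({h} : Set F)) :=
    (Subalgebra.fg_iff_finiteType _).mp h1
  exact Algebra.FiniteType.isNoetherianRing R _

omit [IsDomain R] [IsDiscreteValuationRing R] in
/-- multiplying a section by a power of a chart function -/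
theorem E6b_pow_mul_mem {S : Set F} {n : ℕ} (hn : 0 < n) {w g x : F} (hg : g ∈ chart R S) {k : ℕ}
    (hx : g ^ k * (x ^ n * w) ∈ chart R S) : g ^ k * x ∈ rootSet (chart R S) n w := by
  show (g ^ k * x) ^ n * w ∈ chart R S
  obtain ⟨m, rfl⟩ : ∃ m, n = m + 1 := ⟨n - 1, by omega⟩
  have : (g ^ k * x) ^ (m + 1) * w = (g ^ k) ^ m * (g ^ k * (x ^ (m + 1) * w)) := by ring
  rw [this]
  exact mul_mem (pow_mem (pow_mem hg _) _) hx

/-- E6b. `I(C0)` is finitely generated over `R[h]`. -/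
theorem exists_finset_rootSet {h : F} (h0 : h ≠ 0)
    (hfin : Module.Finite (Algebra.adjoin R ({h} : Set F))
      (integralClosure (Algebra.adjoin R ({h} : Set F)) F))
    (hfrac : ∀ x : F, ∃ b ∈ chart R ({h} : Set F), b ≠ 0 ∧ x * b ∈ chart R ({h} : Set F))
    {n : ℕ} (hn : 0 < n) {w : F} (hw : w ≠ 0) :
    ∃ s : Finset F, (∀ e ∈ s, e ∈ rootSet (chart R ({h} : Set F)) n w) ∧
      ∀ x ∈ rootSet (chart R ({h} : Set F)) n w,
        ∃ p : F → Polynomial R, x = ∑ e ∈ s, Polynomial.aeval h (p e) * e := by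
  classical
  set A := Algebra.adjoin R ({h} : Set F) with hA
  have hAn : IsNoetherianRing A := E6b_isNoetherianRing_adjoin h
  have hTn : IsNoetherian A (integralClosure A F) := isNoetherian_of_isNoetherianRing_of_finite A _
  have hTn' : IsNoetherian A (Subalgebra.toSubmodule (integralClosure A F)) := hTn
  obtain ⟨y, hy, hy0, hyw⟩ := hfrac w⁻¹
  set N : Submodule A F := E6b_rootSubmoduleA ({h} : Set F) hn w with hN
  -- `y • N` lies in the integral closure
  have hle : N.map (LinearMap.mulLeft A y) ≤ Subalgebra.toSubmodule (integralClosure A F) := by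
    rintro _ ⟨a, ha, rfl⟩
    have ha' : a ^ n * w ∈ chart R ({h} : Set F) := ha
    show y * a ∈ chart R ({h} : Set F)
    apply chart_closed
    have h1 : (y * a) ^ n ∈ chart R ({h} : Set F) := by
      obtain ⟨m, rfl⟩ : ∃ m, n = m + 1 := ⟨n - 1, by omega⟩
      have : (y * a) ^ (m + 1) = y ^ m * (w⁻¹ * y) * (a ^ (m + 1) * w) := by
        field_simp
        ring
      rw [this]
      exact mul_mem (mul_mem (pow_mem hy _) hyw) ha'
    have h2 : IsIntegral (chart R ({h} : Set F)) ((y * a) ^ n) := by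
      have := isIntegral_algebraMap (R := chart R ({h} : Set F)) (A := F)
        (x := (⟨(y * a) ^ n, h1⟩ : chart R ({h} : Set F)))
      exact this
    exact IsIntegral.of_pow hn h2
  have hfg1 : (N.map (LinearMap.mulLeft A y)).FG := isNoetherian_submodule.mp hTn' _ hle
  have hfg : N.FG := by
    have h1 := hfg1.map (LinearMap.mulLeft A y⁻¹)
    rw [← Submodule.map_comp] at h1
    have h2 : (LinearMap.mulLeft A y⁻¹).comp (LinearMap.mulLeft A y) = LinearMap.id := by
      ext x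
      simp [hy0]
    rwa [h2, Submodule.map_id] at h1
  obtain ⟨s, hs⟩ := hfg
  refine ⟨s, fun e he => ?_, fun x hx => ?_⟩
  · have : e ∈ N := by rw [← hs]; exact Submodule.subset_span he
    exact this
  · have hxN : x ∈ Submodule.span A (s : Set F) := by rw [hs]; exact hx
    obtain ⟨f, -, hf⟩ := Submodule.mem_span_finset.mp hxN
    have hp : ∀ e : F, ∃ p : Polynomial R, Polynomial.aeval h p = ((f e : A) : F) := by
      intro e
      have h1 : ((f e : A) : F) ∈ Algebra.adjoin R ({h} : Set F) := (f e).2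
      rw [Algebra.adjoin_singleton_eq_range_aeval] at h1
      exact h1
    choose p hp using hp
    refine ⟨p, ?_⟩
    rw [← hf]
    refine Finset.sum_congr rfl fun e _ => ?_
    rw [hp e, Algebra.smul_def]
    rfl

/-- E6c. Bounded torsion of `I(C01) / (I(C0) + I(C1))`. -/
theorem exists_bound_rootSet (hϖ : Irreducible ϖ) {h : F} (h0 : h ≠ 0)
    (hfin : Module.Finite (Algebra.adjoin R ({h} : Set F))
      (integralClosure (Algebra.adjoin R ({h} : Set F)) F))
    (hfrac : ∀ x : F, ∃ b ∈ chart R ({h} : Set F), b ≠ 0 ∧ x * b ∈ chart R ({h} : Set F))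
    {n : ℕ} (hn : 0 < n) {w : F} (hw : w ≠ 0) :
    ∃ m₀ : ℕ, ∀ c ∈ rootSet (chart R ({h, h⁻¹} : Set F)) n w, ∀ m : ℕ,
      (∃ b₀ ∈ rootSet (chart R ({h} : Set F)) n w, ∃ b₁ ∈ rootSet (chart R ({h⁻¹} : Set F)) n w,
        algebraMap R F ϖ ^ m * c = b₀ + b₁) →
      ∃ b₀ ∈ rootSet (chart R ({h} : Set F)) n w, ∃ b₁ ∈ rootSet (chart R ({h⁻¹} : Set F)) n w,
        algebraMap R F ϖ ^ m₀ * c = b₀ + b₁ := by
  obtain ⟨s, hs0, hs⟩ := exists_finset_rootSet (R := R) h0 hfin hfrac hn hw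
  have hh0 : h ∈ chart R ({h} : Set F) := subset_chart _ (Set.mem_singleton h)
  have hh1 : h⁻¹ ∈ chart R ({h⁻¹} : Set F) := subset_chart _ (Set.mem_singleton _)
  have hi0 : h⁻¹ ≠ 0 := inv_ne_zero h0
  have hset1 : ({h, h⁻¹} : Set F) = insert (h⁻¹)⁻¹ ({h⁻¹} : Set F) := by rw [inv_inv]
  have hset0 : ({h, h⁻¹} : Set F) = insert h⁻¹ ({h} : Set F) := Set.pair_comm _ _
  obtain ⟨m₀, hm₀⟩ := exists_torsion_bound (R := R) hϖ h h0
    (E6b_rootSubmodule ({h} : Set F) hn w) (E6b_rootSubmodule ({h⁻¹} : Set F) hn w)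
    (E6b_rootSubmodule ({h, h⁻¹} : Set F) hn w)
    (fun x hx => rootSet_mul hh0 hx) (fun x hx => rootSet_mul hh1 hx) s
    (fun x hx => hs x hx)
    (fun e he => by
      have h1 : e ^ n * w ∈ chart R ({h, h⁻¹} : Set F) :=
        chart_mono (by simp) (hs0 e he)
      rw [hset1] at h1
      obtain ⟨k, hk⟩ := exists_pow_mul_mem_chart (Set.mem_singleton _) hi0 h1
      exact ⟨k, E6b_pow_mul_mem hn hh1 hk⟩)
    (fun e he => hs0 e he)
    (fun x hx => by
      have h1 : x ^ n * w ∈ chart R ({h, h⁻¹} : Set F) := hx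
      rw [hset0] at h1
      obtain ⟨k, hk⟩ := exists_pow_mul_mem_chart (Set.mem_singleton _) h0 h1
      exact ⟨k, E6b_pow_mul_mem hn hh0 hk⟩)
  refine ⟨m₀, fun c hc m hm => ?_⟩
  obtain ⟨b₀, hb₀, b₁, hb₁, hb⟩ := hm
  have h1 : ϖ ^ m • c ∈ E6b_rootSubmodule (R := R) ({h} : Set F) hn w ⊔
      E6b_rootSubmodule ({h⁻¹} : Set F) hn w := by
    rw [Algebra.smul_def, map_pow, hb]
    exact Submodule.add_mem_sup hb₀ hb₁
  have h2 := hm₀ c hc m h1
  obtain ⟨b₀', hb₀', b₁', hb₁', hb'⟩ := Submodule.mem_sup.mp h2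
  refine ⟨b₀', hb₀', b₁', hb₁', ?_⟩
  rw [hb', Algebra.smul_def, map_pow]

end Fermat.Agent.GR.E
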