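import Fermat.Agent.GR.E.E3a
import Fermat.Agent.GR.E.E5
import Fermat.Agent.GR.E.E6b

set_option autoImplicit false

namespace Fermat.Agent.GR.E

variable {R : Type*} [CommRing R] [IsDomain R] [IsDiscreteValuationRing R]
variable {F : Type*} [Field F] [Algebra R F]
variable {ϖ : R} {𝒪 : ValuationSubring F}

/-- every element of `F` is a fraction of elements of a good chart -/
theorem E7_frac {C : Subalgebra R F} (hC : GoodChart ϖ 𝒪 C) (x : F) :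
    ∃ b ∈ C, b ≠ 0 ∧ x * b ∈ C := by
  rcases 𝒪.mem_or_inv_mem x with hx | hx
  · obtain ⟨b, hb, hb', hxb⟩ := hC.frac x hx
    refine ⟨b, hb, ?_, hxb⟩
    rintro rfl
    exact hb' (by simp [𝒪.zero_mem])
  · obtain ⟨b, hb, hb', hxb⟩ := hC.frac x⁻¹ hx
    have hb0 : b ≠ 0 := by
      rintro rfl
      exact hb' (by simp [𝒪.zero_mem])
    by_cases hx0 : x = 0
    · exact ⟨b, hb, hb0, by simp [hx0, C.zero_mem]⟩
    · refine ⟨x⁻¹ * b, hxb, mul_ne_zero (inv_ne_zero hx0) hb0, ?_⟩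
      rw [← mul_assoc, mul_inv_cancel₀ hx0, one_mul]
      exact hb

/-- E7. THE ABSTRACT CRUX LEMMA. -/
theorem crux_abstract (hϖ : Irreducible ϖ) (hG : GaussRing ϖ 𝒪) {h : F}
    (hh : h ∈ 𝒪) (hh' : h⁻¹ ∈ 𝒪) (h0 : h ≠ 0)
    (hC0 : GoodChart ϖ 𝒪 (chart R ({h} : Set F)))
    (hC1 : GoodChart ϖ 𝒪 (chart R ({h⁻¹} : Set F)))
    (hfin : Module.Finite (Algebra.adjoin R ({h} : Set F))
      (integralClosure (Algebra.adjoin R ({h} : Set F)) F))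
    {n : ℕ} (hn : IsUnit (n : R)) {w : F}
    (hw1 : (w - 1) / algebraMap R F ϖ ∈ 𝒪) (hdiv : DivisibleAtPlaces R n w) :
    ∃ a : F, a ≠ 0 ∧ a ^ n * w ∈ chart R ({h} : Set F) ∧ a ^ n * w ∈ chart R ({h⁻¹} : Set F) := by
  have hn0 : 0 < n := by
    rcases Nat.eq_zero_or_pos n with rfl | hpos
    · simp at hn
    · exact hpos
  obtain ⟨-, hw', hw0⟩ := hG.mem_of_sub_one hw1
  set P : F := algebraMap R F ϖ with hP
  have hP0 : P ≠ 0 := hG.ne_zero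
  obtain ⟨m₀, hm₀⟩ := exists_bound_rootSet hϖ h0 hfin (E7_frac hC0) hn0 hw0
  obtain ⟨a₀, ha₀, ha₀', ha₀m⟩ := exists_mem_rootSet_one_pow hϖ hG hC0 hn hw1 hdiv (m₀ + 1)
  obtain ⟨a₁, ha₁, ha₁', ha₁m⟩ := exists_mem_rootSet_one_pow hϖ hG hC1 hn hw1 hdiv (m₀ + 1)
  have hmid : SatChart ϖ 𝒪 (chart R ({h, h⁻¹} : Set F)) :=
    satChart_mid hh hh' h0 hC0.toSatChart
  have hle0 : chart R ({h} : Set F) ≤ chart R ({h, h⁻¹} : Set F) :=
    chart_mono (by intro x hx; exact Or.inl hx)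
  have hle1 : chart R ({h⁻¹} : Set F) ≤ chart R ({h, h⁻¹} : Set F) :=
    chart_mono (by intro x hx; exact Or.inr hx)
  have hc : (a₀ - a₁) / P ^ (m₀ + 1) ∈ rootSet (chart R ({h, h⁻¹} : Set F)) n w :=
    sub_div_pow_mem_rootSet hϖ hG hmid hn hw1 (hle0 ha₀) (hle1 ha₁) ha₀' ha₁'
      (hle0 ha₀m) (hle1 ha₁m)
  obtain ⟨b₀, hb₀, b₁, hb₁, hb⟩ := hm₀ _ hc (m₀ + 1)
    ⟨a₀, ha₀, -a₁, rootSet_neg ha₁, by
      rw [mul_div_cancel₀ _ (pow_ne_zero _ hP0)]; ring⟩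
  have hkey : a₀ - a₁ = P * (b₀ + b₁) := by
    rw [← hb, ← mul_assoc, ← pow_succ', mul_div_cancel₀ _ (pow_ne_zero _ hP0)]
  have hPC0 : P ∈ chart R ({h} : Set F) := (chart R ({h} : Set F)).algebraMap_mem ϖ
  have hPC1 : P ∈ chart R ({h⁻¹} : Set F) := (chart R ({h⁻¹} : Set F)).algebraMap_mem ϖ
  have hA0 : a₀ + -(P * b₀) ∈ rootSet (chart R ({h} : Set F)) n w :=
    rootSet_add hC0.closed hn0 ha₀ (rootSet_neg (rootSet_mul hPC0 hb₀))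
  have hA1 : a₁ + P * b₁ ∈ rootSet (chart R ({h⁻¹} : Set F)) n w :=
    rootSet_add hC1.closed hn0 ha₁ (rootSet_mul hPC1 hb₁)
  have heq : a₀ + -(P * b₀) = a₁ + P * b₁ := by linear_combination hkey
  refine ⟨a₀ + -(P * b₀), ?_, hA0, ?_⟩
  · intro hzero
    have hb₀𝒪 : b₀ ∈ 𝒪 := rootSet_subset hC0.toSatChart hn0 hw0 hw' hb₀
    have h1 : (a₀ - 1) / P - b₀ ∈ 𝒪 := 𝒪.sub_mem ha₀' hb₀𝒪
    have h2 : (a₀ - 1) / P - b₀ = -P⁻¹ := by
      field_simp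
      linear_combination hzero
    rw [h2] at h1
    exact hG.inv_not_mem (by simpa using 𝒪.neg_mem _ h1)
  · rw [heq]
    exact hA1

end Fermat.Agent.GR.E
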