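import Fermat.Agent.GR.E.Defs

set_option autoImplicit false

namespace Fermat.Agent.GR.E

variable {R : Type*} [CommRing R] [IsDomain R] [IsDiscreteValuationRing R]
variable {F : Type*} [Field F] [Algebra R F]
variable {ϖ : R} {𝒪 : ValuationSubring F}

/-- mixed terms `a ^ i * b ^ (n - i) * w` lie in `C` -/
theorem rootSet_mixed {C : Subalgebra R F} (hC : ∀ x : F, IsIntegral C x → x ∈ C) {n : ℕ}
    (hn : 0 < n) {w a b : F} (ha : a ∈ rootSet C n w) (hb : b ∈ rootSet C n w) {i : ℕ}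
    (hi : i ≤ n) : a ^ i * b ^ (n - i) * w ∈ C := by
  apply hC
  apply IsIntegral.of_pow hn
  have h1 : (a ^ i * b ^ (n - i) * w) ^ n = (a ^ n * w) ^ i * (b ^ n * w) ^ (n - i) := by
    have hw : w ^ n = w ^ i * w ^ (n - i) := by rw [← pow_add, Nat.add_sub_cancel' hi]
    rw [mul_pow, mul_pow, mul_pow, mul_pow, hw, ← pow_mul, ← pow_mul, ← pow_mul, ← pow_mul,
      mul_comm i n, mul_comm (n - i) n]
    ring
  have h2 : (a ^ n * w) ^ i * (b ^ n * w) ^ (n - i) ∈ C :=
    C.mul_mem (C.pow_mem ha _) (C.pow_mem hb _)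
  rw [h1]
  exact (isIntegral_algebraMap (R := C) (A := F) (x := ⟨_, h2⟩))

/-- `I(C)` is closed under addition (uses that `C` is integrally closed in `F`). -/
theorem rootSet_add {C : Subalgebra R F} (hC : ∀ x : F, IsIntegral C x → x ∈ C) {n : ℕ}
    (hn : 0 < n) {w a b : F} (ha : a ∈ rootSet C n w) (hb : b ∈ rootSet C n w) :
    a + b ∈ rootSet C n w := by
  change (a + b) ^ n * w ∈ C
  rw [add_pow, Finset.sum_mul]
  refine C.sum_mem ?_
  intro i hi
  have hi' : i ≤ n := Nat.lt_succ_iff.1 (Finset.mem_range.1 hi)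
  have h := rootSet_mixed hC hn ha hb hi'
  have : a ^ i * b ^ (n - i) * (n.choose i : F) * w
      = (n.choose i : F) * (a ^ i * b ^ (n - i) * w) := by ring
  rw [this]
  exact C.mul_mem (natCast_mem C _) h

theorem rootSet_mul {C : Subalgebra R F} {n : ℕ} {w a c : F} (hc : c ∈ C)
    (ha : a ∈ rootSet C n w) : c * a ∈ rootSet C n w := by
  change (c * a) ^ n * w ∈ C
  rw [mul_pow, mul_assoc]
  exact C.mul_mem (C.pow_mem hc _) ha

theorem rootSet_neg {C : Subalgebra R F} {n : ℕ} {w a : F}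
    (ha : a ∈ rootSet C n w) : -a ∈ rootSet C n w := by
  have : -a = (-1 : F) * a := by ring
  rw [this]
  exact rootSet_mul (C.neg_mem C.one_mem) ha

/-- iterated saturation -/
theorem SatChart.sat_pow {C : Subalgebra R F} (hC : SatChart ϖ 𝒪 C) (m : ℕ) {x : F} (hx : x ∈ C)
    (h : x / algebraMap R F ϖ ^ m ∈ 𝒪) : x / algebraMap R F ϖ ^ m ∈ C := by
  induction m with
  | zero => simpa using hx
  | succ m ih =>
    by_cases h0 : algebraMap R F ϖ = 0
    · rw [h0, zero_pow (Nat.succ_ne_zero m), div_zero]; exact C.zero_mem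
    · have hϖ : algebraMap R F ϖ ∈ 𝒪 := hC.le _ (C.algebraMap_mem ϖ)
      have e1 : x / algebraMap R F ϖ ^ m = x / algebraMap R F ϖ ^ (m + 1) * algebraMap R F ϖ := by
        rw [pow_succ]; field_simp
      have e2 : x / algebraMap R F ϖ ^ (m + 1) = x / algebraMap R F ϖ ^ m / algebraMap R F ϖ := by
        rw [pow_succ]; field_simp
      have h1 : x / algebraMap R F ϖ ^ m ∈ C := ih (by rw [e1]; exact mul_mem h hϖ)
      rw [e2]
      refine hC.sat _ h1 ?_
      rw [← e2]; exact h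

/-- `w ≡ 1` is a unit of `𝒪`. -/
theorem GaussRing.mem_of_sub_one (hG : GaussRing ϖ 𝒪) {w : F}
    (hw1 : (w - 1) / algebraMap R F ϖ ∈ 𝒪) : w ∈ 𝒪 ∧ w⁻¹ ∈ 𝒪 ∧ w ≠ 0 := by
  have h0 := hG.ne_zero
  have hw : w ∈ 𝒪 := by
    have : w = 1 + algebraMap R F ϖ * ((w - 1) / algebraMap R F ϖ) := by field_simp; ring
    rw [this]
    exact add_mem (one_mem 𝒪) (mul_mem hG.mem hw1)
  refine ⟨hw, ?_, ?_⟩
  · rcases hG.unif w hw with h | h
    · exfalso
      apply hG.inv_not_mem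
      have : (algebraMap R F ϖ)⁻¹ = w / algebraMap R F ϖ - (w - 1) / algebraMap R F ϖ := by
        field_simp; ring
      rw [this]
      exact sub_mem h hw1
    · exact h
  · rintro rfl
    apply hG.inv_not_mem
    have : (algebraMap R F ϖ)⁻¹ = -((0 - 1) / algebraMap R F ϖ) := by
      field_simp; ring
    rw [this]
    exact neg_mem hw1

/-- elements of `I(C)` are Gauss-integral when `w` is a Gauss unit -/
theorem rootSet_subset {C : Subalgebra R F} (hC : SatChart ϖ 𝒪 C) {n : ℕ} (hn : 0 < n) {w a : F}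
    (hw0 : w ≠ 0) (hw' : w⁻¹ ∈ 𝒪) (ha : a ∈ rootSet C n w) : a ∈ 𝒪 := by
  have h1 : a ^ n ∈ 𝒪 := by
    have : a ^ n = a ^ n * w * w⁻¹ := by field_simp
    rw [this]
    exact mul_mem (hC.le _ ha) hw'
  rcases 𝒪.mem_or_inv_mem a with h | h
  · exact h
  · -- `a = a ^ n * (a⁻¹) ^ (n - 1)`
    by_cases ha0 : a = 0
    · rw [ha0]; exact zero_mem 𝒪
    · obtain ⟨k, rfl⟩ : ∃ k, n = k + 1 := ⟨n - 1, by omega⟩
      have : a = a ^ (k + 1) * a⁻¹ ^ k := by
        rw [pow_succ, inv_pow]; field_simp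
      rw [this]
      exact mul_mem h1 (pow_mem h _)

end Fermat.Agent.GR.E
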